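import Fermat.Agent.Minkowski.Trivial
import Fermat.Agent.ECVal.QbarVal
import Fermat.Agent.Frob.DensityAlgebraic
import Mathlib.NumberTheory.RamificationInertia.Galois

/-!
# The fixed field of an inertia group of `ℚ̄`

Let `A` be a place of `ℚ̄` above the prime `q`, and `K₀` the fixed field of the inertia
group of `A`. We show

* `exists_is_int` : the values of `K₀ˣ` are the integers (normalised by `v(q) = 1`),
* `exists_fixed_sub_mem_nonunits` : every element of `A` is congruent modulo the maximal ideal to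
  an element of `K₀`.
-/

set_option autoImplicit false

namespace Fermat.Agent.LocE

open scoped Pointwise NumberField
open Fermat.Agent.Frob Fermat.Agent.Minkowski FermatAgent.ECVal Polynomial

/-- `x` is fixed by the inertia group of `A`. -/
def IsFixed (A : ValuationSubring (AlgebraicClosure ℚ)) (x : AlgebraicClosure ℚ) : Prop :=
  ∀ σ ∈ A.inertiaSubgroupIn ℚ, σ x = x

/-- The fixed field of the inertia group of `A`, as a subfield of `ℚ̄`. -/
noncomputable def K0 (A : ValuationSubring (AlgebraicClosure ℚ)) :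
    IntermediateField ℚ (AlgebraicClosure ℚ) :=
  IntermediateField.fixedField (A.inertiaSubgroupIn ℚ)

lemma mem_K0_iff {A : ValuationSubring (AlgebraicClosure ℚ)} {x : AlgebraicClosure ℚ} :
    x ∈ K0 A ↔ IsFixed A x := by
  rw [K0, IntermediateField.mem_fixedField_iff]
  rfl

/-- restriction of an embedding to rings of integers -/
noncomputable def emb {F : Type*} [Field F] [NumberField F] (τ : F →+* AlgebraicClosure ℚ) :
    𝓞 F →+* Zbar where
  toFun x := ⟨τ x, x.2.map τ.toIntAlgHom⟩
  map_one' := Subtype.ext (by simp)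
  map_mul' _ _ := Subtype.ext (by simp)
  map_zero' := Subtype.ext (by simp)
  map_add' _ _ := Subtype.ext (by simp)

@[simp] lemma coe_emb {F : Type*} [Field F] [NumberField F] (τ : F →+* AlgebraicClosure ℚ)
    (x : 𝓞 F) : (emb τ x : AlgebraicClosure ℚ) = τ x := rfl

/-- If the centre of `A` on `F` is unramified over `ℤ` then the values of `A` on `F` are powers
of the value of `q`. -/
theorem exists_valuation_eq_zpow_of_unramified {F : Type*} [Field F] [NumberField F]
    (ι : F →+* AlgebraicClosure ℚ) {q : ℕ} (hq : q.Prime)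
    {A : ValuationSubring (AlgebraicClosure ℚ)} (hA : A.LiesOverPrime q)
    (P : Ideal (𝓞 F)) [hP : P.IsPrime] (hPdef : ∀ x : 𝓞 F, x ∈ P ↔ emb ι x ∈ centre A)
    (hunr : Algebra.IsUnramifiedAt ℤ P) {y : F} (hy0 : y ≠ 0) :
    ∃ n : ℤ, A.valuation (ι y) = A.valuation (q : AlgebraicClosure ℚ) ^ n := by
  have hPp : (q : 𝓞 F) ∈ P := by
    rw [hPdef, map_natCast]
    exact natCast_mem_centre hA
  have hq0 : (q : 𝓞 F) ≠ 0 := by exact_mod_cast hq.ne_zero
  have hP0 : P ≠ ⊥ := by
    intro h
    rw [h, Ideal.mem_bot] at hPp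
    exact hq0 hPp
  have hPmax : P.IsMaximal := hP.isMaximal hP0
  let p' : Ideal ℤ := P.under ℤ
  have hp'0 : p' ≠ ⊥ := by
    intro h
    exact hP0 (Ideal.eq_bot_of_comap_eq_bot h)
  have hp'p : p'.IsPrime := inferInstance
  have hp'm : p'.IsMaximal := hp'p.isMaximal hp'0
  have hp'q : p' = Ideal.span {(q : ℤ)} := by
    symm
    have : Fact q.Prime := ⟨hq⟩
    have hmax : (Ideal.span {(q : ℤ)}).IsMaximal :=
      Int.ideal_span_isMaximal_of_prime q
    refine hmax.eq_of_le (Ideal.IsPrime.ne_top inferInstance) ?_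
    rw [Ideal.span_singleton_le_iff_mem, Ideal.mem_comap]
    simpa using hPp
  have : P.LiesOver p' := ⟨rfl⟩
  let R := Localization.AtPrime P
  let : Algebra (Localization.AtPrime p') (Localization.AtPrime P) :=
    Localization.AtPrime.algebraOfLiesOver p' P
  have hmap := ((Algebra.isUnramifiedAt_iff_map_eq ℤ p' P).mp hunr).2
  rw [hp'q, Ideal.map_span, Set.image_singleton] at hmap
  have hDVR : IsDiscreteValuationRing R :=
    IsLocalization.AtPrime.isDiscreteValuationRing_of_dedekind_domain _ hP0 _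
  -- the map to `A`
  have hunitA : ∀ z : 𝓞 F, z ∉ P → A.valuation (ι z) = 1 := by
    intro z hz
    have h1 := isUnit_of_notMem_centre (A := A) (s := emb ι z) (fun h => hz ((hPdef z).mpr h))
    have h2 : A.valuation ((emb ι z : Zbar) : AlgebraicClosure ℚ) ≤ 1 :=
      (A.valuation_le_one_iff _).mpr (mem_of_mem_Zbar A _)
    have h3 : A.valuation ((emb ι z : Zbar) : AlgebraicClosure ℚ)⁻¹ ≤ 1 :=
      (A.valuation_le_one_iff _).mpr h1.1
    rw [map_inv₀] at h3
    have h4 : A.valuation ((emb ι z : Zbar) : AlgebraicClosure ℚ) ≠ 0 := by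
      rw [Ne, Valuation.zero_iff]
      exact h1.2
    have h5 : 1 ≤ A.valuation ((emb ι z : Zbar) : AlgebraicClosure ℚ) := by
      rwa [inv_le_one₀ (zero_lt_iff.mpr h4)] at h3
    exact le_antisymm h2 h5
  let : Algebra R F :=
    (IsLocalization.lift (M := P.primeCompl) (g := algebraMap (𝓞 F) F)
      (fun z => (by
        have hz0 : (z : 𝓞 F) ≠ 0 := by
          rintro h
          exact z.2 (h ▸ P.zero_mem)
        exact isUnit_iff_ne_zero.mpr (by
          intro h
          exact hz0 (FaithfulSMul.algebraMap_injective (𝓞 F) F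
            (by rw [h, map_zero])))))).toAlgebra
  have : IsScalarTower (𝓞 F) R F :=
    IsScalarTower.of_algebraMap_eq (fun z => by
      rw [RingHom.algebraMap_toAlgebra, IsLocalization.lift_eq])
  have : IsFractionRing R F :=
    IsFractionRing.isFractionRing_of_isDomain_of_isLocalization P.primeCompl _ _
  have hunitR : ∀ u : Rˣ, A.valuation (ι (algebraMap R F u)) = 1 := by
    intro u
    obtain ⟨b, s, hbs⟩ := IsLocalization.exists_mk'_eq P.primeCompl (u : R)
    have h1 := IsLocalization.mk'_spec R b s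
    rw [hbs] at h1
    have hb : b ∉ P := by
      intro hb
      have h2 : algebraMap (𝓞 F) R b ∈ IsLocalRing.maximalIdeal R := by
        rw [IsLocalization.AtPrime.to_map_mem_maximal_iff R P]
        exact hb
      rw [← h1] at h2
      have h3 : IsUnit ((u : R) * algebraMap (𝓞 F) R s) :=
        u.isUnit.mul (IsLocalization.map_units R s)
      exact h2 h3
    have h4 := congrArg (fun z => (algebraMap R F z : F)) h1
    simp only [map_mul] at h4
    rw [← IsScalarTower.algebraMap_apply, ← IsScalarTower.algebraMap_apply] at h4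
    have h5 := congrArg (fun z : F => A.valuation (ι z)) h4
    simp only [map_mul] at h5
    have h6 : A.valuation (ι (algebraMap (𝓞 F) F s)) = 1 := hunitA s s.2
    have h7 : A.valuation (ι (algebraMap (𝓞 F) F b)) = 1 := hunitA b hb
    rw [h6, h7, mul_one] at h5
    exact h5
  have hirr : Irreducible (q : R) := by
    rw [IsDiscreteValuationRing.irreducible_iff_uniformizer]
    rw [← hmap]
    congr 2
    exact (map_natCast _ _)
  have hval : ∀ w : R, w ≠ 0 → ∃ n : ℕ, A.valuation (ι (algebraMap R F w)) =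
      A.valuation (q : AlgebraicClosure ℚ) ^ n := by
    intro w hw
    obtain ⟨n, u, hu⟩ := IsDiscreteValuationRing.eq_unit_mul_pow_irreducible hw hirr
    refine ⟨n, ?_⟩
    rw [hu, map_mul, map_pow, map_natCast, map_mul, map_mul, hunitR, one_mul, map_pow, map_pow,
      map_natCast]
  obtain ⟨a, b, hb, hab⟩ := IsFractionRing.div_surjective (A := R) y
  have hb0 : b ≠ 0 := nonZeroDivisors.ne_zero hb
  have ha0 : a ≠ 0 := by
    rintro rfl
    rw [map_zero, zero_div] at hab
    exact hy0 hab.symm
  obtain ⟨m, hm⟩ := hval a ha0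
  obtain ⟨n, hn⟩ := hval b hb0
  refine ⟨(m : ℤ) - n, ?_⟩
  have hqv : A.valuation (q : AlgebraicClosure ℚ) ≠ 0 := by
    rw [Ne, Valuation.zero_iff]
    exact_mod_cast hq.ne_zero
  rw [← hab, map_div₀, map_div₀, hm, hn, zpow_sub₀ hqv, zpow_natCast, zpow_natCast]

/-- The prime of the inertia field below a prime `P` of a Galois number field is unramified
over `ℤ`. -/
theorem unramified_inertiaField {L : Type*} [Field L] [NumberField L] [IsGalois ℚ L]
    (P : Ideal (𝓞 L)) [hP : P.IsPrime] (hP0 : P ≠ ⊥) (E : IntermediateField ℚ L)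
    (hE : E = IntermediateField.fixedField (P.inertia (L ≃ₐ[ℚ] L))) :
    Algebra.IsUnramifiedAt ℤ (P.under (𝓞 E)) := by
  have hPmax : P.IsMaximal := hP.isMaximal hP0
  let p' : Ideal ℤ := P.under ℤ
  have hp'0 : p' ≠ ⊥ := by
    intro h
    exact hP0 (Ideal.eq_bot_of_comap_eq_bot h)
  have hp'p : p'.IsPrime := inferInstance
  have hfin : Finite (ℤ ⧸ p') := Ring.HasFiniteQuotients.finiteQuotient hp'0
  have hp'm : p'.IsMaximal := hp'p.isMaximal hp'0
  have hfin2 : Finite p'.ResidueField := inferInstance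
  have : P.LiesOver p' := ⟨rfl⟩
  have hcard := Ideal.card_inertia_eq_ramificationIdxIn (G := L ≃ₐ[ℚ] L) p' P
  rw [Ideal.ramificationIdxIn_eq_ramificationIdx p' P (L ≃ₐ[ℚ] L)] at hcard
  let PE : Ideal (𝓞 E) := P.under (𝓞 E)
  have hPE0 : PE ≠ ⊥ := by
    intro h
    exact hP0 (Ideal.eq_bot_of_comap_eq_bot h)
  have hPEp : PE.IsPrime := inferInstance
  have hPEm : PE.IsMaximal := hPEp.isMaximal hPE0
  have hfinE : Finite (𝓞 E ⧸ PE) := Ring.HasFiniteQuotients.finiteQuotient hPE0
  have hfin2E : Finite PE.ResidueField := inferInstance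
  have : P.LiesOver PE := ⟨rfl⟩
  have : PE.LiesOver p' := ⟨by
    change P.under ℤ = (P.under (𝓞 E)).under ℤ
    rw [Ideal.under_under]⟩
  have hcardE := Ideal.card_inertia_eq_ramificationIdxIn (G := L ≃ₐ[E] L) PE P
  rw [Ideal.ramificationIdxIn_eq_ramificationIdx PE P (L ≃ₐ[E] L)] at hcardE
  have hfix : E.fixingSubgroup = P.inertia (L ≃ₐ[ℚ] L) := by
    rw [hE, IntermediateField.fixingSubgroup_fixedField]
  have htop : P.inertia (L ≃ₐ[E] L) = ⊤ := by
    rw [eq_top_iff]
    intro τ _
    have h1 : ((IntermediateField.fixingSubgroupEquiv E).symm τ : L ≃ₐ[ℚ] L) ∈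
        P.inertia (L ≃ₐ[ℚ] L) := by
      rw [← hfix]
      exact ((IntermediateField.fixingSubgroupEquiv E).symm τ).2
    intro x
    exact h1 x
  have heq : Nat.card (P.inertia (L ≃ₐ[ℚ] L)) = Nat.card (P.inertia (L ≃ₐ[E] L)) := by
    rw [htop, Subgroup.card_top, ← hfix]
    exact Nat.card_congr (IntermediateField.fixingSubgroupEquiv E).toEquiv
  have htower := Ideal.ramificationIdx_tower (R := ℤ) PE P
  rw [← hcard, ← hcardE, heq] at htower
  rw [← Ideal.ramificationIdx_eq_one_iff]
  exact Nat.eq_of_mul_eq_mul_right Nat.card_pos (by rw [← htower, one_mul])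

lemma exists_galois_aux {k K : Type*} [Field k] [Field K] [Algebra k K] [Normal k K]
    [CharZero k] (F : IntermediateField k K) [FiniteDimensional k F] :
    ∃ L : IntermediateField k K, F ≤ L ∧ FiniteDimensional k L ∧ IsGalois k L :=
  ⟨IntermediateField.normalClosure k F K, F.le_normalClosure, inferInstance, IsGalois.mk⟩

/-- finite Galois subextension containing an element -/
lemma exists_galois (x : AlgebraicClosure ℚ) : ∃ L : IntermediateField ℚ (AlgebraicClosure ℚ),
    x ∈ L ∧ FiniteDimensional ℚ L ∧ IsGalois ℚ L := by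
  have hint : IsIntegral ℚ x := Algebra.IsIntegral.isIntegral x
  have : FiniteDimensional ℚ (IntermediateField.adjoin ℚ {x}) :=
    IntermediateField.adjoin.finiteDimensional hint
  have hn : Normal ℚ (AlgebraicClosure ℚ) := inferInstance
  obtain ⟨L, h1, h2, h3⟩ := exists_galois_aux (IntermediateField.adjoin ℚ {x})
  exact ⟨L, h1 (IntermediateField.mem_adjoin_simple_self ℚ x), h2, h3⟩

/-- **The fixed field of inertia is unramified**: the value of a nonzero element fixed by the
inertia group is a power of the value of `q`. -/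
theorem exists_valuation_eq_zpow {q : ℕ} (hq : q.Prime)
    {A : ValuationSubring (AlgebraicClosure ℚ)} (hA : A.LiesOverPrime q)
    {x : AlgebraicClosure ℚ} (hx : IsFixed A x) (hx0 : x ≠ 0) :
    ∃ n : ℤ, A.valuation x = A.valuation (q : AlgebraicClosure ℚ) ^ n := by
  obtain ⟨L, hxL, hfd, hgal⟩ := exists_galois x
  have : NumberField L := ⟨⟩
  let P : Ideal (𝓞 L) := (centre A).comap (incl L)
  have hP : P.IsPrime := Ideal.comap_isPrime _ _
  have hPp : (q : 𝓞 L) ∈ P := by
    change incl L (q : 𝓞 L) ∈ centre A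
    rw [map_natCast]
    exact natCast_mem_centre hA
  have hP0 : P ≠ ⊥ := by
    intro h
    rw [h, Ideal.mem_bot] at hPp
    exact hq.ne_zero (by exact_mod_cast hPp)
  let E : IntermediateField ℚ L := IntermediateField.fixedField (P.inertia (L ≃ₐ[ℚ] L))
  have hunr := unramified_inertiaField P hP0 E rfl
  have hxE : (⟨x, hxL⟩ : L) ∈ E := by
    rw [IntermediateField.mem_fixedField_iff]
    intro τ hτ
    obtain ⟨σ, hσ, hσ2⟩ := exists_lift_inertia L hq hA τ (fun x => ⟨τ • x - x, rfl, hτ x⟩)
    apply Subtype.ext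
    rw [← hσ2]
    exact hx σ hσ
  let ι : E →+* AlgebraicClosure ℚ := (algebraMap L (AlgebraicClosure ℚ)).comp (algebraMap E L)
  have := exists_valuation_eq_zpow_of_unramified ι hq hA (P.under (𝓞 E)) (fun z => Iff.rfl) hunr
    (y := ⟨⟨x, hxL⟩, hxE⟩) (fun h => hx0 (by
      have := congrArg (fun t => ι t) h
      simpa [ι] using this))
  exact this

/-- An element of `K₀ˣ` has integral valuation. -/
theorem exists_is_int {q : ℕ} (hq : q.Prime)
    {A : ValuationSubring (AlgebraicClosure ℚ)} (hA : A.LiesOverPrime q)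
    {x : AlgebraicClosure ℚ} (hx : IsFixed A x) (hx0 : x ≠ 0) :
    ∃ n : ℤ, (valOf hq hA).Is n x := by
  obtain ⟨n, hn⟩ := exists_valuation_eq_zpow hq hA hx hx0
  refine ⟨n, hx0, ?_⟩
  have h1 := qval_eq_of_pow_eq A.valuation hq (lt_one_of_liesOver hA) hx0 (n := 1) one_pos
    (m := n) (by rw [pow_one]; exact hn)
  rw [Nat.cast_one, div_one] at h1
  exact h1

/-- Nonzero elements of the residue field of a place of `ℚ̄` above `q` are roots of unity of order
prime to `q`. -/
theorem exists_pow_eq_one {q : ℕ} (hq : q.Prime)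
    {A : ValuationSubring (AlgebraicClosure ℚ)} (hA : A.LiesOverPrime q)
    (y : IsLocalRing.ResidueField A) (hy : y ≠ 0) : ∃ n : ℕ, 0 < n ∧ ¬ q ∣ n ∧ y ^ n = 1 := by
  have : Fact q.Prime := ⟨hq⟩
  have hch : CharP (IsLocalRing.ResidueField A) q := FrobDensity.charP_residue hq hA
  let : Algebra (ZMod q) (IsLocalRing.ResidueField A) := ZMod.algebra _ q
  -- `y` is algebraic over `ZMod q`
  have halgy : IsAlgebraic (ZMod q) y := by
    obtain ⟨⟨a, ha⟩, rfl⟩ := IsLocalRing.residue_surjective y
    have halg : IsAlgebraic ℤ a := by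
      have h1 : IsAlgebraic ℚ a := Algebra.IsAlgebraic.isAlgebraic a
      exact (IsFractionRing.isAlgebraic_iff ℤ ℚ (AlgebraicClosure ℚ)).mpr h1
    obtain ⟨f, hf0, hf⟩ := halg
    have hprim := f.isPrimitive_primPart
    have hg : aeval a f.primPart = 0 := (aeval_primPart_eq_zero hf0 hf)
    refine ⟨f.primPart.map (Int.castRingHom (ZMod q)), ?_, ?_⟩
    · intro h0
      have hdvd : C (q : ℤ) ∣ f.primPart := by
        rw [C_dvd_iff_dvd_coeff]
        intro i
        have := congrArg (fun p => p.coeff i) h0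
        simp only [coeff_map, coeff_zero, eq_intCast] at this
        exact (ZMod.intCast_zmod_eq_zero_iff_dvd _ _).mp this
      have hu := hprim _ hdvd
      rw [Int.isUnit_iff] at hu
      have h2 := hq.two_le
      omega
    · have h1 : aeval (⟨a, ha⟩ : A) f.primPart = 0 := by
        apply Subtype.ext
        have h2 := aeval_algebraMap_apply (AlgebraicClosure ℚ) (⟨a, ha⟩ : A) f.primPart
        have h3 : algebraMap A (AlgebraicClosure ℚ) ⟨a, ha⟩ = a := rfl
        rw [h3, hg] at h2
        exact h2.symm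
      rw [aeval_def, eval₂_map]
      have h4 : (algebraMap (ZMod q) (IsLocalRing.ResidueField A)).comp
          (Int.castRingHom (ZMod q)) =
          (IsLocalRing.residue A).comp (algebraMap ℤ A) := RingHom.ext_int _ _
      rw [h4, ← hom_eval₂]
      rw [aeval_def] at h1
      rw [h1, map_zero]
  have hfd : FiniteDimensional (ZMod q) (IntermediateField.adjoin (ZMod q) {y}) :=
    IntermediateField.adjoin.finiteDimensional halgy.isIntegral
  have hfin : Finite (IntermediateField.adjoin (ZMod q) {y}) :=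
    Module.finite_of_finite (ZMod q)
  have : Fintype (IntermediateField.adjoin (ZMod q) {y}) := Fintype.ofFinite _
  let z : IntermediateField.adjoin (ZMod q) {y} :=
    ⟨y, IntermediateField.mem_adjoin_simple_self _ y⟩
  have hz : z ≠ 0 := fun h => hy (congrArg Subtype.val h)
  obtain ⟨m, hm⟩ : ∃ m, Fintype.card (IntermediateField.adjoin (ZMod q) {y}) = q ^ m := by
    have := Module.card_eq_pow_finrank (K := ZMod q)
      (V := IntermediateField.adjoin (ZMod q) {y})
    rw [ZMod.card] at this
    exact ⟨_, this⟩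
  have hcard : 1 < Fintype.card (IntermediateField.adjoin (ZMod q) {y}) :=
    Fintype.one_lt_card
  have hm0 : m ≠ 0 := by
    rintro rfl
    rw [hm, pow_zero] at hcard
    exact lt_irrefl _ hcard
  refine ⟨q ^ m - 1, by omega, ?_, ?_⟩
  · intro hd
    have h1 : q ∣ q ^ m := dvd_pow_self q hm0
    have h2 : 1 ≤ q ^ m := Nat.one_le_pow _ _ hq.pos
    have h3 : q ∣ q ^ m - (q ^ m - 1) := Nat.dvd_sub h1 hd
    have h4 : q ^ m - (q ^ m - 1) = 1 := by omega
    rw [h4] at h3
    exact hq.one_lt.ne' (Nat.dvd_one.mp h3)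
  · have h1 := FiniteField.pow_card_sub_one_eq_one z hz
    rw [hm] at h1
    exact congrArg Subtype.val h1

/-- Roots of unity of order prime to `q` are fixed by inertia. -/
theorem isFixed_of_pow_eq_one {q : ℕ} (hq : q.Prime)
    {A : ValuationSubring (AlgebraicClosure ℚ)} (hA : A.LiesOverPrime q)
    {n : ℕ} (hn0 : 0 < n) (hn : ¬ q ∣ n) {z : AlgebraicClosure ℚ} (hz : z ^ n = 1) :
    IsFixed A z := by
  intro σ hσ
  have hz0 : z ≠ 0 := by
    rintro rfl
    rw [zero_pow hn0.ne'] at hz
    exact zero_ne_one hz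
  have hzA : z ∈ A := by
    rw [← ValuationSubring.valuation_le_one_iff]
    by_contra h
    rw [not_le] at h
    have h2 := one_lt_pow₀ h hn0.ne'
    rw [← map_pow, hz, map_one] at h2
    exact lt_irrefl _ h2
  have hvz : A.valuation z = 1 := by
    have h1 : A.valuation z ^ n = 1 := by rw [← map_pow, hz, map_one]
    exact (pow_eq_one_iff_of_nonneg zero_le hn0.ne').mp h1
  by_contra hne
  set ξ := σ z / z with hξ
  have hξn : ξ ^ n = 1 := by
    rw [hξ, div_pow, ← map_pow, hz, map_one, div_one]
  have hξ1 : ξ ≠ 1 := by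
    rw [hξ, Ne, div_eq_one_iff_eq hz0]
    exact hne
  have hξm : A.valuation (ξ - 1) < 1 := by
    have h1 : ξ - 1 = (σ z - z) / z := by rw [hξ]; field_simp
    rw [h1, map_div₀, hvz, div_one]
    exact (A.mem_nonunits_iff).mp (sub_mem_nonunits_of_mem_inertia hσ hzA).2
  -- reduce the geometric sum
  have hgeom : ∑ i ∈ Finset.range n, ξ ^ i = 0 := by
    have h1 := mul_geom_sum ξ n
    rw [hξn, sub_self] at h1
    exact (mul_eq_zero.mp h1).resolve_left (sub_ne_zero.mpr hξ1)
  have hξv : A.valuation ξ ≤ 1 := by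
    have h1 : ξ = (ξ - 1) + 1 := by ring
    rw [h1]
    exact Valuation.map_add_le _ hξm.le (by rw [map_one])
  have hpow : ∀ i : ℕ, A.valuation (ξ ^ i - 1) < 1 := by
    intro i
    rw [← geom_sum_mul, map_mul]
    have h1 : A.valuation (∑ j ∈ Finset.range i, ξ ^ j) ≤ 1 := by
      apply Valuation.map_sum_le
      intro j _
      rw [map_pow]
      exact pow_le_one₀ zero_le hξv
    calc _ ≤ 1 * A.valuation (ξ - 1) := mul_le_mul_left h1 _
      _ < 1 := by rw [one_mul]; exact hξm
  have hnv : A.valuation (n : AlgebraicClosure ℚ) < 1 := by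
    have h1 : (n : AlgebraicClosure ℚ) = - ∑ i ∈ Finset.range n, (ξ ^ i - 1) := by
      rw [Finset.sum_sub_distrib, hgeom]
      simp
    rw [h1, Valuation.map_neg]
    exact Valuation.map_sum_lt _ one_ne_zero (fun i _ => hpow i)
  have h1 := val_intCast_eq_one A.valuation hq (lt_one_of_liesOver hA) (n := (n : ℤ))
      (by exact_mod_cast hn)
  rw [Int.cast_natCast] at h1
  rw [h1] at hnv
  exact lt_irrefl _ hnv

/-- Every element of `A` is congruent modulo the maximal ideal to an element of `A` fixed by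
inertia. -/
theorem exists_fixed_sub_mem_nonunits {q : ℕ} (hq : q.Prime)
    {A : ValuationSubring (AlgebraicClosure ℚ)} (hA : A.LiesOverPrime q)
    {a : AlgebraicClosure ℚ} (ha : a ∈ A) :
    ∃ b ∈ A, IsFixed A b ∧ a - b ∈ A.nonunits := by
  by_cases h0 : IsLocalRing.residue A ⟨a, ha⟩ = 0
  · refine ⟨0, A.zero_mem, fun σ _ => map_zero σ, ?_⟩
    rw [sub_zero, ValuationSubring.mem_nonunits_iff_exists_mem_maximalIdeal]
    exact ⟨ha, (IsLocalRing.residue_eq_zero_iff _).mp h0⟩
  obtain ⟨n, hn0, hn, hpow⟩ := exists_pow_eq_one hq hA _ h0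
  have hmem : ∀ z ∈ nthRoots n (1 : AlgebraicClosure ℚ), z ∈ A := by
    intro z hz
    rw [mem_nthRoots hn0] at hz
    rw [← ValuationSubring.valuation_le_one_iff]
    by_contra h
    rw [not_le] at h
    have h2 := one_lt_pow₀ h hn0.ne'
    rw [← map_pow, hz, map_one] at h2
    exact lt_irrefl _ h2
  have hprod : (X ^ n - 1 : (AlgebraicClosure ℚ)[X]) =
      ((nthRoots n (1 : AlgebraicClosure ℚ)).map (fun z => X - C z)).prod := by
    have h1 : (X ^ n - C 1 : (AlgebraicClosure ℚ)[X]).Splits := IsAlgClosed.splits _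
    have h2 := h1.eq_prod_roots
    rw [leadingCoeff_X_pow_sub_C hn0, C_1, one_mul] at h2
    exact h2
  have h1 := congrArg (fun f => f.eval a) hprod
  simp only [eval_sub, eval_pow, eval_X, eval_one, eval_multiset_prod, Multiset.map_map,
    Function.comp_def, eval_C] at h1
  have h2 : A.valuation (a ^ n - 1) < 1 := by
    rw [← A.mem_nonunits_iff, ValuationSubring.mem_nonunits_iff_exists_mem_maximalIdeal]
    refine ⟨sub_mem (pow_mem ha n) A.one_mem, ?_⟩
    rw [← IsLocalRing.residue_eq_zero_iff]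
    have : (⟨a ^ n - 1, sub_mem (pow_mem ha n) A.one_mem⟩ : A) = ⟨a, ha⟩ ^ n - 1 := rfl
    rw [this, map_sub, map_pow, hpow, map_one, sub_self]
  rw [h1] at h2
  have h3 : ∃ z ∈ nthRoots n (1 : AlgebraicClosure ℚ), A.valuation (a - z) < 1 := by
    by_contra hcon
    push Not at hcon
    have key : ∀ s : Multiset (AlgebraicClosure ℚ), (∀ z ∈ s, 1 ≤ A.valuation (a - z)) →
        1 ≤ A.valuation ((s.map (fun z => a - z)).prod) := by
      intro s
      induction s using Multiset.induction_on with
      | empty => intro _; simp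
      | cons b s ih =>
        intro h
        rw [Multiset.map_cons, Multiset.prod_cons, map_mul]
        exact one_le_mul (h b (Multiset.mem_cons_self b s))
          (ih (fun z hz => h z (Multiset.mem_cons_of_mem hz)))
    exact absurd h2 (not_lt.mpr (key _ hcon))
  obtain ⟨z, hz, hzv⟩ := h3
  exact ⟨z, hmem z hz, isFixed_of_pow_eq_one hq hA hn0 hn ((mem_nthRoots hn0).mp hz),
    (A.mem_nonunits_iff).mpr hzv⟩

end Fermat.Agent.LocE
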