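import Fermat.Agent.Torsion.Card
import Fermat.Agent.Torsion.FiniteLevel

/-!
# Products over torsion points

* `eval_preΨ'_odd` : the value of an odd division polynomial at a `2`-torsion `x`-coordinate
* `prod_torsion` : `ψ_n(c)² = n² ∏ (c - x(P))`, the product over the nonzero `n`-torsion points
  (`n` odd).
-/

set_option autoImplicit false

namespace Fermat.Agent.LocE

open WeierstrassCurve WeierstrassCurve.Affine WeierstrassCurve.Affine.Point Polynomial
open Fermat.Agent.Torsion

section eds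

variable {K : Type*} [Field K] (W : WeierstrassCurve K)

/-- The value of an odd division polynomial at a root of `Ψ₂Sq`. -/
lemma eval_preΨ'_odd {e D : K} (h2 : W.Ψ₂Sq.eval e = 0) (h3 : W.Ψ₃.eval e = -D ^ 2) (m : ℕ) :
    ∃ ε : K, ε ^ 2 = 1 ∧ (W.preΨ' (2 * m + 1)).eval e = ε * D ^ (m * (m + 1)) := by
  induction m using Nat.strong_induction_on with
  | _ m ih =>
    match m, ih with
    | 0, _ => exact ⟨1, one_pow 2, by simp⟩
    | 1, _ =>
      refine ⟨-1, by norm_num, ?_⟩
      have : 2 * 1 + 1 = 3 := rfl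
      rw [this, preΨ'_three, h3]
      ring
    | m + 2, ih =>
      rw [preΨ'_odd]
      rcases Nat.even_or_odd m with hm | hm
      · obtain ⟨k, hk⟩ := hm
        have hk' : m = 2 * k := by omega
        subst hk'
        obtain ⟨ε₁, h11, h12⟩ := ih k (by omega)
        obtain ⟨ε₂, h21, h22⟩ := ih (k + 1) (by omega)
        refine ⟨-(ε₁ * ε₂ ^ 3), ?_, ?_⟩
        · calc (-(ε₁ * ε₂ ^ 3)) ^ 2 = ε₁ ^ 2 * (ε₂ ^ 2) ^ 3 := by ring
            _ = 1 := by rw [h11, h21]; ring
        · rw [if_pos (even_two_mul k), if_pos (even_two_mul k), eval_sub, eval_mul, eval_mul,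
            eval_mul, eval_mul, eval_pow, eval_pow, eval_pow, h2, eval_one]
          have e1 : 2 * k + 3 = 2 * (k + 1) + 1 := by ring
          rw [e1, h12, h22]
          ring
      · obtain ⟨k, hk⟩ := hm
        subst hk
        have hne : ¬ Even (2 * k + 1) := Nat.not_even_iff_odd.mpr (odd_two_mul_add_one k)
        obtain ⟨ε₁, h11, h12⟩ := ih (k + 1) (by omega)
        obtain ⟨ε₂, h21, h22⟩ := ih (k + 2) (by omega)
        refine ⟨ε₂ * ε₁ ^ 3, ?_, ?_⟩
        · calc (ε₂ * ε₁ ^ 3) ^ 2 = ε₂ ^ 2 * (ε₁ ^ 2) ^ 3 := by ring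
            _ = 1 := by rw [h11, h21]; ring
        · rw [if_neg hne, if_neg hne, eval_sub, eval_mul, eval_mul,
            eval_mul, eval_mul, eval_pow, eval_pow, eval_pow, h2, eval_one]
          have e1 : 2 * k + 1 + 2 = 2 * (k + 1) + 1 := by ring
          have e2 : 2 * k + 1 + 4 = 2 * (k + 2) + 1 := by ring
          rw [e1, e2, h12, h22]
          ring

end eds

section prod

variable {K : Type*} [Field K] [IsAlgClosed K] [DecidableEq K] {W : WeierstrassCurve K}

omit [IsAlgClosed K] [DecidableEq K] in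
/-- points with the same `x`-coordinate. -/
lemma eq_or_eq_neg_of_xOf_eq {P Q : W.toAffine.Point} (hP : P ≠ 0) (hQ : Q ≠ 0)
    (h : xOf P = xOf Q) : P = Q ∨ P = -Q := by
  rcases P with _ | ⟨x₁, y₁, h₁⟩
  · exact absurd rfl hP
  rcases Q with _ | ⟨x₂, y₂, h₂⟩
  · exact absurd rfl hQ
  have hx : x₁ = x₂ := h
  subst hx
  rcases Y_eq_of_X_eq h₁.1 h₂.1 rfl with h3 | h3
  · left; rw [Point.some.injEq]; exact ⟨rfl, h3⟩
  · right; rw [neg_some, Point.some.injEq]; exact ⟨rfl, h3⟩

omit [IsAlgClosed K] [DecidableEq K] in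
lemma xOf_neg (P : W.toAffine.Point) : xOf (-P) = xOf P := by
  rcases P with _ | ⟨x, y, h⟩
  · rfl
  · rw [neg_some]; rfl

/-- `n`-torsion points different from zero. -/
lemma finite_tors (hΔ : W.Δ ≠ 0) {n : ℕ} (hn : (n : K) ≠ 0) :
    {P : W.toAffine.Point | n • P = 0 ∧ P ≠ 0}.Finite := by
  have := finite_torsion (W := W) hΔ hn
  have h2 : {P : W.toAffine.Point | n • P = 0}.Finite := this
  exact h2.subset (fun P hP => hP.1)

/-- The finset of nonzero `n`-torsion points. -/
noncomputable def tors (hΔ : W.Δ ≠ 0) {n : ℕ} (hn : (n : K) ≠ 0) : Finset W.toAffine.Point :=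
  (finite_tors hΔ hn).toFinset

lemma mem_tors (hΔ : W.Δ ≠ 0) {n : ℕ} (hn : (n : K) ≠ 0) {P : W.toAffine.Point} :
    P ∈ tors hΔ hn ↔ n • P = 0 ∧ P ≠ 0 := by
  rw [tors, Set.Finite.mem_toFinset]
  rfl

lemma card_tors (hΔ : W.Δ ≠ 0) {n : ℕ} (hn : (n : K) ≠ 0) : (tors hΔ hn).card = n ^ 2 - 1 := by
  classical
  have h1 := card_torsion (W := W) hΔ hn
  have h2 := finite_torsion (W := W) hΔ hn
  have h3 : {P : W.toAffine.Point | n • P = 0}.Finite := h2
  have h4 : tors hΔ hn = h3.toFinset.erase 0 := by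
    ext P
    rw [mem_tors, Finset.mem_erase, Set.Finite.mem_toFinset]
    exact and_comm
  rw [h4, Finset.card_erase_of_mem (by rw [Set.Finite.mem_toFinset]; exact smul_zero n)]
  congr 1
  rw [← h1, ← Set.ncard_eq_toFinset_card _ h3]
  rfl

/-- `ψ_n(c)² = n² ∏ (c - x(P))` over the nonzero `n`-torsion points, `n` odd. -/
theorem prod_torsion (hΔ : W.Δ ≠ 0) {n : ℕ} (hn : (n : K) ≠ 0) (hodd : Odd n) (c : K) :
    ((W.preΨ' n).eval c) ^ 2 = (n : K) ^ 2 * ∏ P ∈ tors hΔ hn, (c - xOf P) := by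
  classical
  have hnev : ¬ Even n := Nat.not_even_iff_odd.mpr hodd
  set T := tors hΔ hn with hT
  set S := T.image xOf with hS
  have hfib : ∀ s ∈ S, (T.filter (fun P => xOf P = s)).card = 2 := by
    intro s hs
    rw [hS, Finset.mem_image] at hs
    obtain ⟨P, hP, rfl⟩ := hs
    rw [hT, mem_tors] at hP
    have hne : P ≠ -P := by
      intro h
      have h2 : P + P = 0 := by
        nth_rw 2 [h]
        rw [add_neg_cancel]
      obtain ⟨k, hk⟩ := hodd
      have h3 : n • P = k • (P + P) + P := by rw [hk]; module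
      rw [hP.1, h2, smul_zero, zero_add] at h3
      exact hP.2 h3.symm
    have : T.filter (fun Q => xOf Q = xOf P) = {P, -P} := by
      ext Q
      rw [Finset.mem_filter, Finset.mem_insert, Finset.mem_singleton, hT, mem_tors]
      constructor
      · rintro ⟨⟨h1, h2⟩, h3⟩
        exact eq_or_eq_neg_of_xOf_eq h2 hP.2 h3
      · rintro (rfl | rfl)
        · exact ⟨hP, rfl⟩
        · refine ⟨⟨?_, neg_ne_zero.mpr hP.2⟩, xOf_neg P⟩
          rw [smul_neg, hP.1, _root_.neg_zero]
    rw [this, Finset.card_pair hne]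
  have hScard : 2 * S.card = n ^ 2 - 1 := by
    rw [← card_tors hΔ hn, Finset.card_eq_sum_card_image xOf T, Finset.sum_congr rfl hfib,
      Finset.sum_const, smul_eq_mul, mul_comm]
  -- the roots
  have hf0 : W.preΨ' n ≠ 0 := W.preΨ'_ne_zero hn
  have hdeg : (W.preΨ' n).natDegree = S.card := by
    rw [W.natDegree_preΨ' hn, if_neg hnev]
    omega
  have hroot : ∀ s ∈ S, (W.preΨ' n).IsRoot s := by
    intro s hs
    rw [hS, Finset.mem_image] at hs
    obtain ⟨P, hP, rfl⟩ := hs
    rw [hT, mem_tors] at hP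
    rcases P with _ | ⟨x, y, h⟩
    · exact absurd rfl hP.2
    have h1 := (nsmul_eq_zero_iff h n).mp hP.1
    rw [WeierstrassCurve.ΨSq_ofNat, if_neg hnev, mul_one, eval_pow, sq_eq_zero_iff] at h1
    exact h1
  have hle : S.val ≤ (W.preΨ' n).roots := by
    rw [Multiset.le_iff_subset S.nodup]
    intro s hs
    rw [mem_roots hf0]
    exact hroot s hs
  have hcardle : Multiset.card (W.preΨ' n).roots ≤ Multiset.card S.val := by
    have := card_roots' (W.preΨ' n)
    rw [hdeg] at this
    exact this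
  have hroots : S.val = (W.preΨ' n).roots := Multiset.eq_of_le_of_card_le hle hcardle
  have hsplit : (W.preΨ' n).Splits := IsAlgClosed.splits _
  have hprod := hsplit.eq_prod_roots
  rw [← hroots, W.leadingCoeff_preΨ' hn, if_neg hnev] at hprod
  have hev : (W.preΨ' n).eval c = n * ∏ s ∈ S, (c - s) := by
    conv_lhs => rw [hprod]
    rw [eval_mul, eval_C, eval_multiset_prod, Multiset.map_map]
    congr 1
    simp only [Function.comp_def, eval_sub, eval_X, eval_C]
    rfl
  rw [hev, mul_pow]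
  congr 1
  have h5 := Finset.prod_comp (s := T) (fun s => c - s) xOf
  rw [h5, ← hS, ← Finset.prod_pow]
  exact Finset.prod_congr rfl (fun s hs => by rw [hfib s hs])

end prod

end Fermat.Agent.LocE
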