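import Fermat.Agent.LocE.K0

/-!
# Kummer generators which are units

Let `A` be a place of `ℚ̄` above the odd prime `p`, `I` its inertia group, `K₀` the fixed
field. Let `T : ZMod p → A` be an injective family permuted by `I` through
`σ (T k) = T (κ(σ) + ω(σ) k)`, `ω` the cyclotomic character. If `v(T 1 - T 0) = 1/(p-1)` then
there is a unit `ρ` of `A` with `σ ρ = ζ ^ κ(σ) ρ`.
-/

set_option autoImplicit false

namespace Fermat.Agent.LocE

open FermatAgent.ECVal

local notation "Qbar" => AlgebraicClosure ℚ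

section QValSum

variable {K : Type*} [Field K] {w : QVal K} {ι : Type*}

lemma ge_sum {r : ℚ} (s : Finset ι) (t : ι → K) (h : ∀ i ∈ s, w.Ge r (t i)) :
    w.Ge r (∑ i ∈ s, t i) := by
  classical
  induction s using Finset.induction_on with
  | empty => rw [Finset.sum_empty]; exact QVal.ge_zero r
  | insert a s ha ih =>
    rw [Finset.sum_insert ha]
    exact (h a (Finset.mem_insert_self a s)).add
      (ih (fun i hi => h i (Finset.mem_insert_of_mem hi)))

lemma gt_sum {r : ℚ} (s : Finset ι) (t : ι → K) (h : ∀ i ∈ s, w.Gt r (t i)) :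
    w.Gt r (∑ i ∈ s, t i) := by
  classical
  induction s using Finset.induction_on with
  | empty => rw [Finset.sum_empty]; exact QVal.gt_zero r
  | insert a s ha ih =>
    rw [Finset.sum_insert ha]
    exact (h a (Finset.mem_insert_self a s)).add
      (ih (fun i hi => h i (Finset.mem_insert_of_mem hi)))

/-- If the nonzero terms of a sum have pairwise distinct values, the value of the sum is the
minimum. -/
lemma ge_of_ge_sum {r : ℚ} (s : Finset ι) (t : ι → K)
    (hd : ∀ i ∈ s, ∀ j ∈ s, i ≠ j → t i ≠ 0 → t j ≠ 0 → w.val (t i) ≠ w.val (t j))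
    (h : w.Ge r (∑ i ∈ s, t i)) : ∀ i ∈ s, w.Ge r (t i) := by
  classical
  by_contra hcon
  push Not at hcon
  obtain ⟨i, his, hi⟩ := hcon
  rw [QVal.not_ge_iff] at hi
  obtain ⟨i₀, hi₀, hmin⟩ := Finset.exists_min_image (s.filter (fun i => t i ≠ 0))
    (fun i => w.val (t i)) ⟨i, Finset.mem_filter.mpr ⟨his, hi.1⟩⟩
  rw [Finset.mem_filter] at hi₀
  have hlt : w.val (t i₀) < r :=
    lt_of_le_of_lt (hmin i (Finset.mem_filter.mpr ⟨his, hi.1⟩)) hi.2
  have hrest : w.Gt (w.val (t i₀)) (∑ i ∈ s.erase i₀, t i) := by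
    apply gt_sum
    intro j hj
    rw [Finset.mem_erase] at hj
    by_cases hj0 : t j = 0
    · exact Or.inl hj0
    · right
      refine lt_of_le_of_ne (hmin j (Finset.mem_filter.mpr ⟨hj.2, hj0⟩)) ?_
      exact hd i₀ hi₀.1 j hj.2 (Ne.symm hj.1) hi₀.2 hj0
  rw [← Finset.add_sum_erase s t hi₀.1] at h
  have h2 := (QVal.Is.of_ne (w := w) hi₀.2).add_gt hrest
  exact absurd (h2.le_of_ge h) (not_le.mpr hlt)

lemma is_prod (s : Finset ι) (f : ι → K) (h : ∀ i ∈ s, f i ≠ 0) :
    w.Is (∑ i ∈ s, w.val (f i)) (∏ i ∈ s, f i) := by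
  classical
  induction s using Finset.induction_on with
  | empty => simpa using QVal.is_one
  | insert a s ha ih =>
    rw [Finset.sum_insert ha, Finset.prod_insert ha]
    exact (QVal.Is.of_ne (h a (Finset.mem_insert_self a s))).mul
      (ih (fun i hi => h i (Finset.mem_insert_of_mem hi)))

end QValSum

section zeta

variable {p : ℕ} [hp : Fact p.Prime] {A : ValuationSubring Qbar} {hA : A.LiesOverPrime p}

lemma ge_one_sub_pow {μ : Qbar} (hμ : μ ^ p = 1) (i : ℕ) :
    ∃ c : Qbar, (valOf hp.out hA).Ge 0 c ∧ μ ^ i - 1 = c * (μ - 1) := by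
  refine ⟨∑ j ∈ Finset.range i, μ ^ j, ?_, (geom_sum_mul μ i).symm⟩
  apply ge_sum
  intro j _
  have hμ0 : μ ≠ 0 := by
    rintro rfl
    rw [zero_pow hp.out.ne_zero] at hμ
    exact zero_ne_one hμ
  have h1 : (valOf hp.out hA).Is 0 μ := by
    have h2 := (QVal.Is.of_ne (w := valOf hp.out hA) hμ0).pow p
    rw [hμ] at h2
    have h3 := h2.unique QVal.is_one
    have hp0 : (p : ℚ) ≠ 0 := by exact_mod_cast hp.out.ne_zero
    exact ⟨hμ0, (mul_eq_zero.mp h3).resolve_left hp0⟩
  exact (h1.pow j).ge.mono (by simp)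

/-- `v(ζ - 1) = 1/(p-1)`. -/
theorem is_zeta_sub_one {ζ : Qbar} (hζ : IsPrimitiveRoot ζ p) :
    (valOf hp.out hA).Is (1 / (p - 1)) (ζ - 1) := by
  classical
  set w := valOf hp.out hA with hw
  have hne : ∀ μ ∈ primitiveRoots p Qbar, μ - 1 ≠ 0 := by
    intro μ hμ h
    rw [mem_primitiveRoots hp.out.pos] at hμ
    exact hμ.ne_one hp.out.one_lt (sub_eq_zero.mp h)
  have hle : ∀ μ ∈ primitiveRoots p Qbar, ∀ ν ∈ primitiveRoots p Qbar,
      w.val (μ - 1) ≤ w.val (ν - 1) := by
    intro μ hμ ν hν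
    have hμ' := (mem_primitiveRoots hp.out.pos).mp hμ
    have hν' := (mem_primitiveRoots hp.out.pos).mp hν
    obtain ⟨i, -, hi⟩ := hμ'.eq_pow_of_pow_eq_one hν'.pow_eq_one
    obtain ⟨c, hc, hc2⟩ := ge_one_sub_pow (hA := hA) hμ'.pow_eq_one i
    rw [hi] at hc2
    have h1 := hc.mul (QVal.Is.of_ne (w := w) (hne μ hμ)).ge
    rw [← hc2, zero_add] at h1
    exact h1.resolve_left (hne ν hν)
  have hprod : ∏ μ ∈ primitiveRoots p Qbar, (1 - μ) = (p : Qbar) := by
    have h1 := Polynomial.cyclotomic_eq_prod_X_sub_primitiveRoots hζ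
    have h2 := Polynomial.eval_one_cyclotomic_prime (R := Qbar) (p := p)
    rw [h1, Polynomial.eval_prod] at h2
    simpa using h2
  have hne' : ∀ μ ∈ primitiveRoots p Qbar, 1 - μ ≠ 0 := by
    intro μ hμ
    rw [← neg_sub]
    exact neg_ne_zero.mpr (hne μ hμ)
  have h3 : w.Is (∑ μ ∈ primitiveRoots p Qbar, w.val (1 - μ))
      (∏ μ ∈ primitiveRoots p Qbar, (1 - μ)) := is_prod _ _ hne'
  rw [hprod] at h3
  have h4 := h3.unique (valOf_prime hp.out hA)
  have hζm : ζ ∈ primitiveRoots p Qbar := (mem_primitiveRoots hp.out.pos).mpr hζ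
  have h5 : ∀ μ ∈ primitiveRoots p Qbar, w.val (1 - μ) = w.val (ζ - 1) := by
    intro μ hμ
    rw [← neg_sub, QVal.val_neg (hne μ hμ)]
    exact le_antisymm (hle μ hμ ζ hζm) (hle ζ hζm μ hμ)
  rw [Finset.sum_congr rfl h5, Finset.sum_const, hζ.card_primitiveRoots,
    Nat.totient_prime hp.out, nsmul_eq_mul, Nat.cast_sub hp.out.one_lt.le, Nat.cast_one] at h4
  refine ⟨hne ζ hζm, ?_⟩
  have hp1 : (1 : ℚ) < p := by exact_mod_cast hp.out.one_lt
  have hp1' : (p : ℚ) - 1 ≠ 0 := by linarith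
  field_simp
  linarith

lemma ge_zeta_pow_sub_one {ζ : Qbar} (hζ : IsPrimitiveRoot ζ p) (i : ℕ) :
    (valOf hp.out hA).Ge (1 / (p - 1)) (ζ ^ i - 1) := by
  obtain ⟨c, hc, hc2⟩ := ge_one_sub_pow (hA := hA) hζ.pow_eq_one i
  rw [hc2]
  exact (hc.mul (is_zeta_sub_one hζ).ge).mono (by linarith)

end zeta

section resolvent

variable {p : ℕ} [hp : Fact p.Prime] {ζ : Qbar} (hζ : IsPrimitiveRoot ζ p)

/-- the character `k ↦ ζ ^ k` -/
noncomputable def zchar : AddChar (ZMod p) Qbar :=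
  haveI : NeZero p := ⟨hp.out.ne_zero⟩
  AddChar.zmodChar p hζ.pow_eq_one

lemma zchar_apply (a : ZMod p) : zchar hζ a = ζ ^ a.val := by
  have : NeZero p := ⟨hp.out.ne_zero⟩
  exact AddChar.zmodChar_apply _ _

lemma zchar_pow (a : ZMod p) (n : ℕ) : zchar hζ a ^ n = zchar hζ (n * a) := by
  rw [← nsmul_eq_mul, AddChar.map_nsmul_eq_pow]

lemma map_zchar {σ : Qbar ≃ₐ[ℚ] Qbar} {ω : ZMod p} (hω : σ ζ = ζ ^ ω.val) (a : ZMod p) :
    σ (zchar hζ a) = zchar hζ (ω * a) := by
  have hp0 : NeZero p := ⟨hp.out.ne_zero⟩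
  rw [zchar_apply, map_pow, hω, ← zchar_apply hζ ω, zchar_pow, ZMod.natCast_zmod_val, mul_comm]

lemma sum_zchar (b : ZMod p) : ∑ x : ZMod p, zchar hζ (x * b) = if b = 0 then (p : Qbar) else 0 := by
  have : NeZero p := ⟨hp.out.ne_zero⟩
  have h1 := AddChar.sum_mulShift b (AddChar.zmodChar_primitive_of_primitive_root p hζ)
  rw [ZMod.card] at h1
  split_ifs with h
  · rw [if_pos h] at h1; exact h1
  · rw [if_neg h, Nat.cast_zero] at h1; exact h1

/-- The Lagrange resolvents. -/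
noncomputable def resolvent (t : ZMod p → Qbar) (j : ZMod p) : Qbar :=
  ∑ k : ZMod p, zchar hζ (-(j * k)) * t k

lemma map_resolvent {σ : Qbar ≃ₐ[ℚ] Qbar} {ω κ : ZMod p} (hω : σ ζ = ζ ^ ω.val) {t : ZMod p → Qbar}
    (ht : ∀ k, σ (t k) = t (κ + ω * k)) (j : ZMod p) :
    σ (resolvent hζ t j) = zchar hζ (j * κ) * resolvent hζ t j := by
  have hp0 : NeZero p := ⟨hp.out.ne_zero⟩
  have hω0 : ω ≠ 0 := by
    rintro rfl
    rw [ZMod.val_zero, pow_zero] at hω
    have h1 : σ ζ = σ 1 := by rw [hω, map_one]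
    exact hζ.ne_one hp.out.one_lt (σ.injective h1)
  rw [resolvent, map_sum, Finset.mul_sum]
  let e : ZMod p ≃ ZMod p := (Equiv.mulLeft₀ ω hω0).trans (Equiv.addLeft κ)
  have he : ∀ k, e k = κ + ω * k := fun k => rfl
  refine Fintype.sum_equiv e _ _ (fun k => ?_)
  rw [map_mul, ht k, map_zchar hζ hω, he, ← mul_assoc, ← AddChar.map_add_eq_mul]
  congr 2
  ring

lemma inversion (t : ZMod p → Qbar) (k : ZMod p) :
    ∑ j : ZMod p, zchar hζ (j * k) * resolvent hζ t j = p * t k := by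
  simp only [resolvent, Finset.mul_sum]
  rw [Finset.sum_comm]
  have h1 : ∀ k' : ZMod p, ∑ j : ZMod p, zchar hζ (j * k) * (zchar hζ (-(j * k')) * t k') =
      (if k - k' = 0 then (p : Qbar) else 0) * t k' := by
    intro k'
    rw [← sum_zchar hζ (k - k'), Finset.sum_mul]
    refine Finset.sum_congr rfl (fun j _ => ?_)
    rw [← mul_assoc, ← AddChar.map_add_eq_mul]
    congr 2
    ring
  rw [Finset.sum_congr rfl (fun k' _ => h1 k'), Finset.sum_eq_single k]
  · rw [sub_self, if_pos rfl]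
  · intro k' _ hk'
    rw [if_neg (sub_ne_zero.mpr (Ne.symm hk')), zero_mul]
  · intro h
    exact absurd (Finset.mem_univ _) h

open Polynomial in
lemma exists_resolvent_ne_zero {T : ZMod p → Qbar} (hinj : Function.Injective T) (j : ZMod p) :
    ∃ i : ℕ, resolvent hζ (fun k => T k ^ i) j ≠ 0 := by
  classical
  by_contra hcon
  push Not at hcon
  have key : ∀ f : Qbar[X], ∑ k : ZMod p, zchar hζ (-(j * k)) * f.eval (T k) = 0 := by
    intro f
    simp only [eval_eq_sum_range, Finset.mul_sum]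
    rw [Finset.sum_comm]
    apply Finset.sum_eq_zero
    intro i _
    have h1 := hcon i
    rw [resolvent] at h1
    have h2 : ∑ k : ZMod p, zchar hζ (-(j * k)) * (f.coeff i * T k ^ i) =
        f.coeff i * ∑ k : ZMod p, zchar hζ (-(j * k)) * T k ^ i := by
      rw [Finset.mul_sum]
      refine Finset.sum_congr rfl (fun k _ => ?_)
      ring
    rw [h2, h1, mul_zero]
  have h1 := key (Lagrange.basis Finset.univ T 0)
  rw [Finset.sum_eq_single 0] at h1
  · rw [Lagrange.eval_basis_self hinj.injOn (Finset.mem_univ _), mul_zero, neg_zero, mul_one,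
      AddChar.map_zero_eq_one] at h1
    exact one_ne_zero h1
  · intro k _ hk
    rw [Lagrange.eval_basis_of_ne (Ne.symm hk) (Finset.mem_univ _), mul_zero]
  · intro h
    exact absurd (Finset.mem_univ _) h

include hζ in
/-- **Unit Kummer generators.** -/
theorem exists_unit_kummer {A : ValuationSubring Qbar} {hA : A.LiesOverPrime p}
    (T : ZMod p → Qbar) (hinj : Function.Injective T) (hTA : ∀ k, T k ∈ A)
    (κ ω : (Qbar ≃ₐ[ℚ] Qbar) → ZMod p)
    (hω : ∀ σ ∈ A.inertiaSubgroupIn ℚ, σ ζ = ζ ^ (ω σ).val)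
    (hκ : ∀ σ ∈ A.inertiaSubgroupIn ℚ, ∀ k, σ (T k) = T (κ σ + ω σ * k))
    {r : ℚ} (hr : r < 1 / (p - 1) + 1 / p) (hv : (valOf hp.out hA).Is r (T 1 - T 0)) :
    ∃ ρ : Qbar, (valOf hp.out hA).Is 0 ρ ∧
      ∀ σ ∈ A.inertiaSubgroupIn ℚ, σ ρ = ζ ^ (κ σ).val * ρ := by
  classical
  have hp0 : NeZero p := ⟨hp.out.ne_zero⟩
  have hpQ : (0 : ℚ) < p := by exact_mod_cast hp.out.pos
  have hpK : (p : Qbar) ≠ 0 := by exact_mod_cast hp.out.ne_zero
  set w := valOf hp.out hA with hw
  obtain ⟨i, hi⟩ := exists_resolvent_ne_zero hζ hinj 1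
  set ρ₀ := resolvent hζ (fun k => T k ^ i) 1 with hρ₀
  have hσρ : ∀ σ ∈ A.inertiaSubgroupIn ℚ, σ ρ₀ = zchar hζ (κ σ) * ρ₀ := by
    intro σ hσ
    have h1 := map_resolvent hζ (hω σ hσ) (t := fun k => T k ^ i) (κ := κ σ)
      (fun k => by rw [map_pow, hκ σ hσ]) 1
    rwa [one_mul] at h1
  set c : ZMod p → Qbar := fun j => resolvent hζ T j / (p * ρ₀ ^ j.val) with hc
  have hcfix : ∀ j, IsFixed A (c j) := by
    intro j σ hσ
    have h1 := map_resolvent hζ (hω σ hσ) (hκ σ hσ) j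
    rw [hc]
    simp only
    have e1 : σ (p * ρ₀ ^ j.val) = p * (zchar hζ (j * κ σ) * ρ₀ ^ j.val) := by
      rw [map_mul, map_natCast, map_pow, hσρ σ hσ, mul_pow, zchar_pow, ZMod.natCast_zmod_val]
    rw [map_div₀, h1, e1]
    have h2 : zchar hζ (j * κ σ) ≠ 0 := by
      rw [zchar_apply]
      exact pow_ne_zero _ (hζ.ne_zero hp.out.ne_zero)
    field_simp
  set t : ZMod p → Qbar := fun j => c j * ρ₀ ^ j.val with ht
  have htr : ∀ j, t j = resolvent hζ T j / p := by
    intro j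
    rw [ht]
    simp only [hc]
    field_simp
  have hT : ∀ k, T k = ∑ j : ZMod p, zchar hζ (j * k) * t j := by
    intro k
    have h1 := inversion hζ T k
    simp only [htr]
    have h2 : ∑ j : ZMod p, zchar hζ (j * k) * (resolvent hζ T j / p) =
        (∑ j : ZMod p, zchar hζ (j * k) * resolvent hζ T j) / p := by
      rw [Finset.sum_div]
      refine Finset.sum_congr rfl (fun j _ => by ring)
    rw [h2, h1]
    field_simp
  -- the value of `ρ₀`
  have hfixp : IsFixed A (ρ₀ ^ p) := by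
    intro σ hσ
    rw [map_pow, hσρ σ hσ, mul_pow, zchar_pow]
    simp
  obtain ⟨a, ha⟩ := exists_is_int hp.out hA hfixp (pow_ne_zero _ hi)
  have hval : w.val ρ₀ = a / p := by
    have h1 := ((QVal.Is.of_ne (w := w) hi).pow p).unique ha
    field_simp
    linarith
  by_cases hpa : (p : ℤ) ∣ a
  · -- `ρ₀ / p ^ b`
    obtain ⟨b, rfl⟩ := hpa
    have hval' : w.Is b ρ₀ := ⟨hi, by
      rw [hval]; push_cast; field_simp⟩
    have hpb : w.Is b ((p : Qbar) ^ b) := by
      rcases b with b | b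
      · have h1 := (valOf_prime hp.out hA).pow b
        rw [mul_one] at h1
        have h2 : ((p : Qbar) ^ (Int.ofNat b)) = (p : Qbar) ^ b := zpow_natCast _ _
        rw [h2]
        exact h1.congr (by simp)
      · have h1 := ((valOf_prime hp.out hA).pow (b + 1)).inv
        rw [zpow_negSucc]
        exact h1.congr (by push_cast; ring)
    refine ⟨ρ₀ / (p : Qbar) ^ b, ?_, ?_⟩
    · rw [div_eq_mul_inv]
      exact (hval'.mul hpb.inv).congr (by ring)
    · intro σ hσ
      rw [map_div₀, hσρ σ hσ, map_zpow₀, map_natCast, ← zchar_apply hζ, mul_div_assoc]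
  · exfalso
    -- the values of the terms
    have hterm : ∀ j, t j ≠ 0 → ∃ m : ℤ, w.val (t j) = (p * m + j.val * a) / p := by
      intro j hj
      have hcj : c j ≠ 0 := by
        intro h
        apply hj
        rw [ht]
        simp only [h, zero_mul]
      obtain ⟨m, hm⟩ := exists_is_int hp.out hA (hcfix j) hcj
      refine ⟨m, ?_⟩
      have h1 := (hm.mul ((QVal.Is.of_ne (w := w) hi).pow j.val))
      have h2 : w.val (t j) = _ := h1.2
      rw [h2, hval]
      field_simp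
    have hcop : IsCoprime (p : ℤ) a := by
      rw [Int.isCoprime_iff_gcd_eq_one]
      have : Int.gcd p a = Nat.gcd p a.natAbs := rfl
      rw [this]
      exact (Nat.Prime.coprime_iff_not_dvd hp.out).mpr (fun h' => hpa (Int.natCast_dvd.mpr h'))
    have hsum : ∑ j : ZMod p, t j = T 0 := by
      rw [hT 0]
      refine Finset.sum_congr rfl (fun j _ => ?_)
      rw [mul_zero, AddChar.map_zero_eq_one, one_mul]
    have hge0 : ∀ j ∈ (Finset.univ : Finset (ZMod p)), w.Ge 0 (t j) := by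
      apply ge_of_ge_sum
      · intro j _ k _ hjk hj hk heq
        obtain ⟨m, hm⟩ := hterm j hj
        obtain ⟨m', hm'⟩ := hterm k hk
        rw [hm, hm', div_left_inj' hpQ.ne'] at heq
        have h1 : (p : ℤ) * m + j.val * a = p * m' + k.val * a := by exact_mod_cast heq
        have h2 : (p : ℤ) ∣ ((j.val : ℤ) - k.val) * a := ⟨m' - m, by linear_combination h1⟩
        have h3 := hcop.dvd_of_dvd_mul_right h2
        apply hjk
        have h4 : ((j.val : ℤ) : ZMod p) = ((k.val : ℤ) : ZMod p) := by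
          rw [← sub_eq_zero, ← Int.cast_sub]
          exact (ZMod.intCast_zmod_eq_zero_iff_dvd _ _).mpr h3
        simpa using h4
      · rw [hsum]
        exact (valOf_ge_zero_iff hp.out hA).mpr (hTA 0)
    have hge1 : ∀ j : ZMod p, j ≠ 0 → w.Ge (1 / p) (t j) := by
      intro j hj0
      by_cases hj : t j = 0
      · exact Or.inl hj
      right
      obtain ⟨m, hm⟩ := hterm j hj
      have h1 := (hge0 j (Finset.mem_univ _)).resolve_left hj
      rw [hm] at h1 ⊢
      have h2 : (0 : ℚ) ≤ p * m + j.val * a := by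
        rcases (div_nonneg_iff.mp h1) with ⟨h, -⟩ | ⟨-, h⟩
        · exact h
        · exfalso; linarith
      have h3 : (0 : ℤ) ≤ p * m + j.val * a := by exact_mod_cast h2
      have h4 : (p : ℤ) * m + j.val * a ≠ 0 := by
        intro h
        have h5 : (p : ℤ) ∣ (j.val : ℤ) * a := ⟨-m, by linear_combination h⟩
        have h6 := hcop.dvd_of_dvd_mul_right h5
        apply hj0
        have h7 : ((j.val : ℤ) : ZMod p) = 0 := (ZMod.intCast_zmod_eq_zero_iff_dvd _ _).mpr h6
        simpa using h7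
      have h5 : (1 : ℤ) ≤ p * m + j.val * a := by omega
      have h6 : (1 : ℚ) ≤ p * m + j.val * a := by exact_mod_cast h5
      exact div_le_div_of_nonneg_right h6 hpQ.le
    have hdiff : T 1 - T 0 = ∑ j : ZMod p, (zchar hζ j - 1) * t j := by
      rw [← hsum, hT 1, ← Finset.sum_sub_distrib]
      refine Finset.sum_congr rfl (fun j _ => ?_)
      rw [mul_one]; ring
    have hge : w.Ge (1 / (p - 1) + 1 / p) (T 1 - T 0) := by
      rw [hdiff]
      apply ge_sum
      intro j _
      by_cases hj : j = 0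
      · left
        rw [hj, AddChar.map_zero_eq_one, sub_self, zero_mul]
      · refine QVal.Ge.mul ?_ (hge1 j hj)
        rw [zchar_apply]
        exact ge_zeta_pow_sub_one hζ _
    exact absurd (hv.le_of_ge hge) (not_le.mpr hr)

end resolvent

end Fermat.Agent.LocE
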