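import Fermat.Agent.ECVal.Component

/-!
# The variation of `x` under addition of a point of the formal group
-/

set_option autoImplicit false

namespace Fermat.Agent.LocE

open WeierstrassCurve WeierstrassCurve.Affine WeierstrassCurve.Affine.Point
open FermatAgent.ECVal

variable {K : Type*} [Field K] [DecidableEq K] {w : QVal K} {W : Affine K} {e D : K} {h : ℚ}

omit [DecidableEq K] in
lemma is_of_sq {r : ℚ} {x : K} (hx : w.Is (2 * r) (x ^ 2)) : w.Is r x := by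
  have hx0 : x ≠ 0 := by
    rintro rfl
    exact hx.1 (by ring)
  have h1 := (QVal.Is.of_ne (w := w) hx0).sq.unique hx
  exact ⟨hx0, by linarith⟩

lemma psi_sq_eq (N : NodeData w W e D h) {x y : K} (hxy : W.Equation x y) :
    (2 * y + W.a₁ * x + W.a₃) ^ 2 =
      4 * (x - e) ^ 3 + (W.b₂ + 12 * e) * (x - e) ^ 2 + 4 * D * (x - e) := by
  rw [psi2_sq hxy]
  linear_combination (2 * (x - e)) * N.h4 + N.h6

/-- value of `ψ₂` at a point reducing to the node. -/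
lemma psi_is_mid (N : NodeData w W e D h) {x y : K} (hxy : W.Equation x y) {m : ℚ}
    (h0 : 0 < m) (hm : m < h) (hx : w.Is m (x - e)) : w.Is m (2 * y + W.a₁ * x + W.a₃) := by
  apply is_of_sq
  rw [psi_sq_eq N hxy]
  have h4 : w.Ge 0 (4 : K) := QVal.ge_four
  have t1 : w.Gt (2 * m) (4 * (x - e) ^ 3) :=
    (h4.mul (hx.pow 3).ge).gt (by push_cast; linarith)
  have t2 : w.Is (2 * m) ((W.b₂ + 12 * e) * (x - e) ^ 2) :=
    (N.hB.mul hx.sq).congr (by ring)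
  have t3 : w.Gt (2 * m) (4 * D * (x - e)) :=
    ((h4.mul N.hD.ge).mul hx.ge).gt (by linarith)
  exact (t1.add_is t2).add_gt t3

/-- value of `ψ₂` at a point near infinity. -/
lemma psi_is_inf (N : NodeData w W e D h) (h2 : w.Is 0 (2 : K)) {x y : K} (hxy : W.Equation x y)
    {s : ℚ} (hs : 0 < s) (hx : w.Is (-(2 * s)) (x - e)) :
    w.Is (-(3 * s)) (2 * y + W.a₁ * x + W.a₃) := by
  apply is_of_sq
  rw [psi_sq_eq N hxy]
  have h4 : w.Is 0 (4 : K) := by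
    have := h2.sq
    norm_num at this
    exact this
  have hh := N.hh
  have t1 : w.Is (2 * (-(3 * s))) (4 * (x - e) ^ 3) :=
    (h4.mul (hx.pow 3)).congr (by push_cast; ring)
  have t2 : w.Gt (2 * (-(3 * s))) ((W.b₂ + 12 * e) * (x - e) ^ 2) :=
    (N.hB.mul hx.sq).gt (by linarith)
  have t3 : w.Gt (2 * (-(3 * s))) (4 * D * (x - e)) :=
    ((h4.mul N.hD).mul hx).gt (by linarith)
  exact (t1.add_gt t2).add_gt t3

/-- If `P` reduces to the node with `v(x(P) - e) = m` and `Q` is in the formal group with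
`v(x(Q) - e) = -2 s`, then `v(x(P+Q) - x(P)) = m + s`. -/
theorem addX_sub_is (N : NodeData w W e D h) (h2 : w.Is 0 (2 : K)) {x₁ y₁ x₂ y₂ α α' : K}
    (h₁ : W.Nonsingular x₁ y₁) (h₂ : W.Nonsingular x₂ y₂) (hα : W.Nonsingular α α')
    (hadd : some x₁ y₁ h₁ + some x₂ y₂ h₂ = some α α' hα) {m s : ℚ}
    (hm0 : 0 < m) (hmh : m < h) (hs : 0 < s) (hx₁ : w.Is m (x₁ - e))
    (hx₂ : w.Is (-(2 * s)) (x₂ - e)) : w.Is (m + s) (α - x₁) := by
  have hne : x₁ ≠ x₂ := by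
    rintro rfl
    have := hx₁.unique hx₂
    linarith
  obtain ⟨β, β', hβ, hadd', hform⟩ := exists_add_psi h₁ h₂ hne
  rw [hadd, some.injEq] at hadd'
  obtain ⟨rfl, -⟩ := hadd'
  have h4 : w.Is 0 (4 : K) := by
    have := h2.sq
    norm_num at this
    exact this
  have hg2 : w.Ge 0 (2 : K) := h2.ge
  have hg4 : w.Ge 0 (4 : K) := h4.ge
  have hg12 : w.Ge 0 (12 : K) := by exact_mod_cast QVal.ge_natCast (w := w) 12
  have hψ₁ := psi_is_mid N h₁.1 hm0 hmh hx₁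
  have hψ₂ := psi_is_inf N h2 h₂.1 hs hx₂
  have hq₁ := psi_sq_eq N h₁.1
  have hq₂ := psi_sq_eq N h₂.1
  set ψ₁ := 2 * y₁ + W.a₁ * x₁ + W.a₃ with hψ₁def
  set ψ₂ := 2 * y₂ + W.a₁ * x₂ + W.a₃ with hψ₂def
  set X₁ := x₁ - e with hX₁
  set X₂ := x₂ - e with hX₂
  set B := W.b₂ + 12 * e with hB
  have key : (X₁ - X₂) ^ 2 * (4 * (α - x₁)) =
      -(2 * ψ₁ * ψ₂) + (-(4 * X₁ ^ 3) + 12 * X₁ ^ 2 * X₂ + 2 * B * X₁ * X₂ + 4 * D * X₁ +
        4 * D * X₂) := by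
    have e1 : X₁ - X₂ = x₁ - x₂ := by rw [hX₁, hX₂]; ring
    have e2 : W.b₂ = B - 12 * e := by rw [hB]; ring
    have e3 : x₁ = X₁ + e := by rw [hX₁]; ring
    have e4 : x₂ = X₂ + e := by rw [hX₂]; ring
    rw [e2] at hform
    rw [e1]
    have e5 : (x₁ - x₂) ^ 2 * (4 * (α - x₁)) = (x₁ - x₂) ^ 2 * (4 * (α + x₁ + x₂) + (B - 12 * e)) -
        (x₁ - x₂) ^ 2 * (8 * x₁ + 4 * x₂ + (B - 12 * e)) := by ring
    rw [e5, hform, e3, e4]
    linear_combination hq₁ + hq₂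
  have hh := N.hh
  have t0 : w.Is (m - 3 * s) (-(2 * ψ₁ * ψ₂)) :=
    (((h2.mul hψ₁).mul hψ₂).congr (by ring)).neg
  have t1 : w.Gt (m - 3 * s) (-(4 * X₁ ^ 3)) :=
    (((hg4.mul (hx₁.pow 3).ge).gt (by push_cast; linarith))).neg
  have t2 : w.Gt (m - 3 * s) (12 * X₁ ^ 2 * X₂) :=
    ((hg12.mul hx₁.sq.ge).mul hx₂.ge).gt (by linarith)
  have t3 : w.Gt (m - 3 * s) (2 * B * X₁ * X₂) :=
    (((hg2.mul N.hB.ge).mul hx₁.ge).mul hx₂.ge).gt (by linarith)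
  have t4 : w.Gt (m - 3 * s) (4 * D * X₁) :=
    ((hg4.mul N.hD.ge).mul hx₁.ge).gt (by linarith)
  have t5 : w.Gt (m - 3 * s) (4 * D * X₂) :=
    ((hg4.mul N.hD.ge).mul hx₂.ge).gt (by linarith)
  have t6 := t0.add_gt ((((t1.add t2).add t3).add t4).add t5)
  rw [← key] at t6
  have t7 : w.Is (-(4 * s)) ((X₁ - X₂) ^ 2) := by
    have : w.Is (-(2 * s)) (X₁ - X₂) := by
      have h3 : w.Gt (-(2 * s)) X₁ := hx₁.gt (by linarith)
      exact h3.sub_is hx₂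
    exact this.sq.congr (by ring)
  have t8 := t6.of_mul t7
  exact (t8.of_mul h4).congr (by ring)

end Fermat.Agent.LocE
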