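import Mathlib

/-!
# Functions on a plane over `𝔽_p` which are additive up to sign
-/

set_option autoImplicit false

namespace Fermat.Agent.LocE

open Finset

lemma sum_min_range (m : ℕ) : ∑ i ∈ range (2 * m + 1), min i (2 * m + 1 - i) = m * (m + 1) := by
  have e : 2 * m + 1 = (m + 1) + m := by ring
  rw [e, Finset.sum_range_add]
  have h1 : ∑ i ∈ range (m + 1), min i (m + 1 + m - i) = ∑ i ∈ range (m + 1), i := by
    refine Finset.sum_congr rfl (fun i hi => ?_)
    rw [mem_range] at hi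
    omega
  have h2 : ∑ i ∈ range m, min (m + 1 + i) (m + 1 + m - (m + 1 + i)) =
      ∑ i ∈ range m, (m - i) := by
    refine Finset.sum_congr rfl (fun i hi => ?_)
    rw [mem_range] at hi
    omega
  have h3 : ∑ i ∈ range m, (m - i) = ∑ i ∈ range (m + 1), i := by
    rw [Finset.sum_range_succ' (fun i => i) m, add_zero,
      ← Finset.sum_range_reflect (fun i => i + 1) m]
    refine Finset.sum_congr rfl (fun i hi => ?_)
    rw [mem_range] at hi
    omega
  rw [h1, h2, h3]
  have h4 := Finset.sum_range_id_mul_two (m + 1)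
  have h5 : m + 1 - 1 = m := rfl
  rw [h5] at h4
  linarith

lemma sum_valMinAbs {p : ℕ} [hp : Fact p.Prime] (hodd : Odd p) :
    4 * ∑ a : ZMod p, (a.valMinAbs).natAbs = p ^ 2 - 1 := by
  obtain ⟨m, hm⟩ := hodd
  have h1 : ∑ a : ZMod p, (a.valMinAbs).natAbs = ∑ i ∈ range p, min i (p - i) := by
    have hp0 : NeZero p := ⟨hp.out.ne_zero⟩
    refine Finset.sum_bij' (fun a _ => a.val) (fun i _ => (i : ZMod p)) ?_ ?_ ?_ ?_ ?_
    · intro a _; rw [mem_range]; exact a.val_lt
    · intro i _; exact mem_univ _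
    · intro a _; exact ZMod.natCast_zmod_val a
    · intro i hi; rw [mem_range] at hi; exact ZMod.val_cast_of_lt hi
    · intro a _; exact ZMod.valMinAbs_natAbs_eq_min a
  rw [h1, hm, sum_min_range]
  have : (2 * m + 1) ^ 2 = 4 * (m * (m + 1)) + 1 := by ring
  omega

/-- A function on a `𝔽_p`-vector space with values in `[0, (p-1)/2]`, additive up to sign. -/
structure AddUpToSign (p : ℕ) {V : Type*} [AddCommGroup V] [Module (ZMod p) V] (j : V → ℕ) :
    Prop where
  lt : ∀ x, 2 * j x < p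
  smul : ∀ (k : ZMod p) (x : V), (j (k • x) : ZMod p) = k * j x ∨ (j (k • x) : ZMod p) = -(k * j x)
  pair : ∀ x y : V,
    (((j (x + y) : ZMod p) = j x + j y ∨ (j (x + y) : ZMod p) = -(j x + j y)) ∧
      ((j (x - y) : ZMod p) = j x - j y ∨ (j (x - y) : ZMod p) = -(j x - j y))) ∨
    (((j (x + y) : ZMod p) = j x - j y ∨ (j (x + y) : ZMod p) = -(j x - j y)) ∧
      ((j (x - y) : ZMod p) = j x + j y ∨ (j (x - y) : ZMod p) = -(j x + j y)))

namespace AddUpToSign

variable {p : ℕ} [hp : Fact p.Prime] {V : Type*} [AddCommGroup V] [Module (ZMod p) V] {j : V → ℕ}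
  (H : AddUpToSign p j)
include H

lemma eq_zero_of_cast {x : V} (h : (j x : ZMod p) = 0) : j x = 0 := by
  have h1 := (ZMod.natCast_eq_zero_iff _ _).mp h
  have h2 := H.lt x
  exact Nat.eq_zero_of_dvd_of_lt h1 (by omega)

lemma eq_natAbs (x : V) {a : ZMod p} (h : (j x : ZMod p) = a ∨ (j x : ZMod p) = -a) :
    j x = (a.valMinAbs).natAbs := by
  have hp0 : NeZero p := ⟨hp.out.ne_zero⟩
  have h2 := H.lt x
  have key : ∀ b : ZMod p, (j x : ZMod p) = b → j x = (b.valMinAbs).natAbs := by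
    rintro b rfl
    rw [ZMod.valMinAbs_natAbs_eq_min, ZMod.val_cast_of_lt (by omega)]
    omega
  rcases h with h | h
  · exact key a h
  · rw [key _ h]
    rw [ZMod.natAbs_valMinAbs_neg]

/-- the zero locus. -/
def zeroLocus : Submodule (ZMod p) V where
  carrier := {x | j x = 0}
  zero_mem' := by
    have h := H.smul 0 0
    rw [zero_smul, zero_mul, _root_.neg_zero, or_self] at h
    exact H.eq_zero_of_cast h
  add_mem' := by
    intro x y hx hy
    have hx' : j x = 0 := hx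
    have hy' : j y = 0 := hy
    apply H.eq_zero_of_cast
    rcases H.pair x y with ⟨h | h, -⟩ | ⟨h | h, -⟩ <;> rw [h, hx', hy'] <;> simp
  smul_mem' := by
    intro k x hx
    have hx' : j x = 0 := hx
    apply H.eq_zero_of_cast
    rcases H.smul k x with h | h <;> rw [h, hx'] <;> simp

lemma mem_zeroLocus {x : V} : x ∈ H.zeroLocus ↔ j x = 0 := Iff.rfl

lemma add_zeroLocus (x : V) {v : V} (hv : v ∈ H.zeroLocus) : j (x + v) = j x := by
  have hv' : j v = 0 := hv
  have h1 : (j (x + v) : ZMod p) = j x ∨ (j (x + v) : ZMod p) = -(j x) := by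
    rcases H.pair x v with ⟨h, -⟩ | ⟨h, -⟩
    · simpa [hv'] using h
    · simpa [hv'] using h
  rw [H.eq_natAbs (x + v) h1]
  exact (H.eq_natAbs x (Or.inl rfl)).symm

lemma exists_smul {x₁ : V} (hx₁ : j x₁ ≠ 0) (y : V) :
    ∃ k : ZMod p, y - k • x₁ ∈ H.zeroLocus := by
  have hJ : (j x₁ : ZMod p) ≠ 0 := fun h => hx₁ (H.eq_zero_of_cast h)
  set k : ZMod p := j y / j x₁ with hk
  have hk1 : k * j x₁ = j y := div_mul_cancel₀ _ hJ
  have h1 := H.smul k x₁
  rw [hk1] at h1
  have h2 : j (k • x₁) = j y := by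
    rw [H.eq_natAbs _ h1]
    exact (H.eq_natAbs y (Or.inl rfl)).symm
  rcases H.pair y (k • x₁) with ⟨-, h⟩ | ⟨h, -⟩
  · refine ⟨k, H.eq_zero_of_cast ?_⟩
    rw [h2, sub_self, _root_.neg_zero, or_self] at h
    exact h
  · refine ⟨-k, ?_⟩
    rw [neg_smul, sub_neg_eq_add]
    refine H.eq_zero_of_cast ?_
    rw [h2, sub_self, _root_.neg_zero, or_self] at h
    exact h

/-- the decomposition of the plane -/
noncomputable def equiv {x₁ : V} (hx₁ : j x₁ ≠ 0) : ZMod p × H.zeroLocus ≃ V :=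
  Equiv.ofBijective (fun a => a.1 • x₁ + a.2) (by
    have hJ : (j x₁ : ZMod p) ≠ 0 := fun h => hx₁ (H.eq_zero_of_cast h)
    constructor
    · rintro ⟨k, v⟩ ⟨k', v'⟩ h
      simp only at h
      have h1 : (k - k') • x₁ = v' - v := by
        rw [sub_smul, sub_eq_sub_iff_add_eq_add, h]
        abel
      have h2 : (k - k') • x₁ ∈ H.zeroLocus := by
        rw [h1]
        exact H.zeroLocus.sub_mem v'.2 v.2
      have h3 : (j ((k - k') • x₁) : ZMod p) = 0 := by
        rw [H.mem_zeroLocus.mp h2, Nat.cast_zero]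
      have h4 : (k - k') * (j x₁ : ZMod p) = 0 := by
        rcases H.smul (k - k') x₁ with h | h
        · rw [← h, h3]
        · rw [h3] at h
          exact neg_eq_zero.mp h.symm
      have h5 : k = k' := sub_eq_zero.mp ((mul_eq_zero.mp h4).resolve_right hJ)
      subst h5
      have h6 : (v : V) = v' := add_left_cancel h
      rw [Subtype.ext h6]
    · intro y
      obtain ⟨k, hk⟩ := H.exists_smul hx₁ y
      exact ⟨⟨k, ⟨_, hk⟩⟩, by simp⟩)

lemma card_zeroLocus {x₁ : V} (hx₁ : j x₁ ≠ 0) (hcard : Nat.card V = p ^ 2) :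
    Nat.card H.zeroLocus = p := by
  have h1 := Nat.card_congr (H.equiv hx₁)
  rw [Nat.card_prod, hcard, Nat.card_zmod, sq] at h1
  exact Nat.eq_of_mul_eq_mul_left hp.out.pos h1

lemma sum_eq [Fintype V] {x₁ : V} (hx₁ : j x₁ ≠ 0) (hcard : Nat.card V = p ^ 2) (hodd : Odd p) :
    4 * ∑ x : V, j x = p * (p ^ 2 - 1) := by
  classical
  have hJ : (j x₁ : ZMod p) ≠ 0 := fun h => hx₁ (H.eq_zero_of_cast h)
  have : Fintype H.zeroLocus := Fintype.ofFinite _
  have h1 : ∑ x : V, j x = ∑ k : ZMod p, ∑ v : H.zeroLocus, j (k • x₁ + v) := by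
    rw [← (H.equiv hx₁).sum_comp, Fintype.sum_prod_type]
    rfl
  have h2 : ∀ k : ZMod p, ∑ v : H.zeroLocus, j (k • x₁ + v) = p * (k * j x₁).valMinAbs.natAbs := by
    intro k
    have h3 : ∀ v : H.zeroLocus, j (k • x₁ + v) = (k * j x₁).valMinAbs.natAbs := by
      intro v
      rw [H.add_zeroLocus _ v.2]
      exact H.eq_natAbs _ (H.smul k x₁)
    rw [Finset.sum_congr rfl (fun v _ => h3 v), Finset.sum_const, Finset.card_univ,
      ← Nat.card_eq_fintype_card, H.card_zeroLocus hx₁ hcard, smul_eq_mul]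
  rw [h1, Finset.sum_congr rfl (fun k _ => h2 k), ← Finset.mul_sum]
  have h4 : ∑ k : ZMod p, (k * (j x₁ : ZMod p)).valMinAbs.natAbs =
      ∑ a : ZMod p, a.valMinAbs.natAbs :=
    Equiv.sum_comp (Equiv.mulRight₀ (j x₁ : ZMod p) hJ) (fun a : ZMod p => a.valMinAbs.natAbs)
  rw [h4, mul_left_comm, sum_valMinAbs hodd]

end AddUpToSign

end Fermat.Agent.LocE
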