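import Fermat.Agent.LocE.Abstract
import Fermat.Agent.LocE.TorsProd
import Fermat.Agent.LocE.K0
import Fermat.Agent.ECVal.Component
import Fermat.Agent.ECVal.FormalTorsion
import Fermat.Prelude.Def_FLTPrelim_GaloisRep

/-!
# The `p`-torsion of a curve with multiplicative reduction at `p`

Let `W/ℚ` have multiplicative reduction at the place `A` of `ℚ̄` above the odd prime `p`, with a
`2`-torsion point of `x`-coordinate `e` reducing to the node and `v(D) = p n`. Then the points of
`E[p]` in the identity component form a line `V₀`, with `v(x(z)) = -2/(p-1)` for `z ∈ V₀`,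
`z ≠ 0`, and `v(x(P) - e)` is an integer `2nj`, `0 < 2 j < p`, for the other points.
-/

set_option autoImplicit false

namespace Fermat.Agent.LocE

open WeierstrassCurve WeierstrassCurve.Affine WeierstrassCurve.Affine.Point
open Fermat.Agent.Torsion FermatAgent.ECVal

local notation "Qbar" => AlgebraicClosure ℚ

section rel

open FermatAgent.ECVal.QVal

lemma cast_of_rel {p n : ℕ} (_hp : 0 < p) (hn : 0 < n) {a b : ℤ}
    (h : Rel ((p : ℚ) * n) (a * (2 * n)) (b * (2 * n))) :
    (a : ZMod p) = b ∨ (a : ZMod p) = -b := by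
  have hn' : (0 : ℚ) < n := by exact_mod_cast hn
  obtain ⟨m, h | h⟩ := h
  · left
    have h1 : (a : ℚ) = b + m * p := by
      have h2 : (a - (b + m * p) : ℚ) * (2 * n) = 0 := by linarith
      rcases mul_eq_zero.mp h2 with h3 | h3
      · linarith
      · exfalso; linarith
    have h2 : a = b + m * p := by exact_mod_cast h1
    rw [h2]; push_cast; simp
  · right
    have h1 : (a : ℚ) = -b + m * p := by
      have h2 : (a - (-b + m * p) : ℚ) * (2 * n) = 0 := by linarith
      rcases mul_eq_zero.mp h2 with h3 | h3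
      · linarith
      · exfalso; linarith
    have h2 : a = -b + m * p := by exact_mod_cast h1
    rw [h2]; push_cast; simp

end rel

variable {W : WeierstrassCurve ℚ} {p : ℕ} [hp : Fact p.Prime]
  {A : ValuationSubring Qbar} {hA : A.LiesOverPrime p} {e D : Qbar} {n : ℕ}

lemma node_n_pos (N : NodeData (valOf hp.out hA) (W⁄Qbar) e D ((p : ℚ) * n)) : 0 < n := by
  have := N.hh
  rcases Nat.eq_zero_or_pos n with h | h
  · rw [h, Nat.cast_zero, mul_zero] at this
    exact absurd this (lt_irrefl _)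
  · exact h

/-- components of `p`-torsion points. -/
lemma exists_comp (N : NodeData (valOf hp.out hA) (W⁄Qbar) e D ((p : ℚ) * n)) (hodd : Odd p)
    (x : Submodule.torsionBy ℤ (W⁄Qbar).Point p) :
    ∃ j : ℕ, 2 * j < p ∧ pcomp (valOf hp.out hA) e ((p : ℚ) * n) (x : (W⁄Qbar).Point) =
      j * (2 * n) := by
  have hn := node_n_pos N
  have hn' : (0 : ℚ) < n := by exact_mod_cast hn
  have hp0 : (0 : ℚ) < p := by exact_mod_cast hp.out.pos
  have hx := (mem_torsionBy_nat_iff p _).mp x.2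
  obtain ⟨j, hj⟩ := pcomp_torsion N hx
  have h0 := pcomp_nonneg N (x : (W⁄Qbar).Point)
  have h1 := pcomp_le N (x : (W⁄Qbar).Point)
  set c := pcomp (valOf hp.out hA) e ((p : ℚ) * n) (x : (W⁄Qbar).Point) with hc
  have hcj : c = j * (2 * n) := by
    have h2 : (p : ℚ) * (c - j * (2 * n)) = 0 := by linarith
    rcases mul_eq_zero.mp h2 with h3 | h3
    · exact absurd h3 hp0.ne'
    · linarith
  have hj0 : (0 : ℚ) ≤ j := by
    by_contra hcon
    rw [not_le] at hcon
    have : (j : ℚ) * (2 * n) < 0 := by nlinarith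
    linarith
  have hj1 : (2 * j : ℚ) ≤ p := by
    by_contra hcon
    rw [not_le] at hcon
    have : (p : ℚ) * n < 2 * j * n := by nlinarith
    linarith
  have hj0' : (0 : ℤ) ≤ j := by exact_mod_cast hj0
  have hj1' : 2 * j ≤ (p : ℤ) := by exact_mod_cast hj1
  have hj2 : 2 * j < (p : ℤ) := by
    rcases lt_or_eq_of_le hj1' with h | h
    · exact h
    · obtain ⟨k, hk⟩ := hodd
      omega
  lift j to ℕ using hj0'
  refine ⟨j, by exact_mod_cast hj2, ?_⟩
  rw [hcj]
  push_cast
  rfl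

/-- the component index of a `p`-torsion point. -/
noncomputable def jN (N : NodeData (valOf hp.out hA) (W⁄Qbar) e D ((p : ℚ) * n)) (hodd : Odd p)
    (x : Submodule.torsionBy ℤ (W⁄Qbar).Point p) : ℕ := (exists_comp N hodd x).choose

lemma jN_lt (N : NodeData (valOf hp.out hA) (W⁄Qbar) e D ((p : ℚ) * n)) (hodd : Odd p)
    (x : Submodule.torsionBy ℤ (W⁄Qbar).Point p) : 2 * jN N hodd x < p :=
  (exists_comp N hodd x).choose_spec.1

lemma jN_spec (N : NodeData (valOf hp.out hA) (W⁄Qbar) e D ((p : ℚ) * n)) (hodd : Odd p)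
    (x : Submodule.torsionBy ℤ (W⁄Qbar).Point p) :
    pcomp (valOf hp.out hA) e ((p : ℚ) * n) (x : (W⁄Qbar).Point) = jN N hodd x * (2 * n) :=
  (exists_comp N hodd x).choose_spec.2

lemma addUpToSign (N : NodeData (valOf hp.out hA) (W⁄Qbar) e D ((p : ℚ) * n)) (hodd : Odd p) :
    AddUpToSign p (jN N hodd) where
  lt := jN_lt N hodd
  smul := by
    intro k x
    have hp0 : NeZero p := ⟨hp.out.ne_zero⟩
    have h1 := pcomp_nsmul N (x : (W⁄Qbar).Point) k.val
    have h2 : k • x = k.val • x := by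
      conv_lhs => rw [← ZMod.natCast_zmod_val k]
      exact Nat.cast_smul_eq_nsmul (ZMod p) _ _
    have h3 : ((k.val • x : Submodule.torsionBy ℤ (W⁄Qbar).Point p) : (W⁄Qbar).Point) =
        k.val • (x : (W⁄Qbar).Point) := rfl
    rw [h2]
    rw [← h3, jN_spec N hodd, jN_spec N hodd] at h1
    have h4 := cast_of_rel (a := jN N hodd (k.val • x)) (b := k.val * jN N hodd x) hp.out.pos
      (node_n_pos N) (by
        push_cast
        have : ((k.val : ℚ) * jN N hodd x) * (2 * n) = k.val * (jN N hodd x * (2 * n)) := by ring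
        rw [this]
        exact h1)
    push_cast at h4
    rw [ZMod.natCast_zmod_val] at h4
    exact h4
  pair := by
    intro x y
    have h1 := pcomp_pair N (x : (W⁄Qbar).Point) (y : (W⁄Qbar).Point)
    have e1 : (x : (W⁄Qbar).Point) + y = ((x + y : Submodule.torsionBy ℤ (W⁄Qbar).Point p) :
      (W⁄Qbar).Point) := rfl
    have e2 : (x : (W⁄Qbar).Point) - y = ((x - y : Submodule.torsionBy ℤ (W⁄Qbar).Point p) :
      (W⁄Qbar).Point) := rfl
    rw [e1, e2, jN_spec N hodd, jN_spec N hodd, jN_spec N hodd, jN_spec N hodd] at h1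
    have key1 : ∀ z : Submodule.torsionBy ℤ (W⁄Qbar).Point p,
        QVal.Rel ((p : ℚ) * n) (jN N hodd z * (2 * n))
          (jN N hodd x * (2 * n) + jN N hodd y * (2 * n)) →
        ((jN N hodd z : ZMod p) = jN N hodd x + jN N hodd y ∨
          (jN N hodd z : ZMod p) = -(jN N hodd x + jN N hodd y)) := by
      intro z hz
      have h4 := cast_of_rel (a := jN N hodd z) (b := jN N hodd x + jN N hodd y) hp.out.pos
        (node_n_pos N) (by push_cast; rw [add_mul]; exact hz)
      push_cast at h4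
      exact h4
    have key2 : ∀ z : Submodule.torsionBy ℤ (W⁄Qbar).Point p,
        QVal.Rel ((p : ℚ) * n) (jN N hodd z * (2 * n))
          (jN N hodd x * (2 * n) - jN N hodd y * (2 * n)) →
        ((jN N hodd z : ZMod p) = jN N hodd x - jN N hodd y ∨
          (jN N hodd z : ZMod p) = -(jN N hodd x - jN N hodd y)) := by
      intro z hz
      have h4 := cast_of_rel (a := jN N hodd z) (b := jN N hodd x - jN N hodd y) hp.out.pos
        (node_n_pos N) (by push_cast; rw [sub_mul]; exact hz)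
      push_cast at h4
      exact h4
    rcases h1 with ⟨h2, h3⟩ | ⟨h2, h3⟩
    · exact Or.inl ⟨key1 _ h2, key2 _ h3⟩
    · exact Or.inr ⟨key2 _ h2, key1 _ h3⟩

section valprod

open Finset

lemma val_prod {K : Type*} [Field K] (w : QVal K) {ι : Type*} (s : Finset ι) (f : ι → K)
    (h : ∀ i ∈ s, f i ≠ 0) : w.Is (∑ i ∈ s, w.val (f i)) (∏ i ∈ s, f i) := by
  classical
  induction s using Finset.induction_on with
  | empty => simpa using QVal.is_one
  | insert a s ha ih =>
    rw [Finset.sum_insert ha, Finset.prod_insert ha]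
    exact (QVal.Is.of_ne (h a (Finset.mem_insert_self a s))).mul
      (ih (fun i hi => h i (Finset.mem_insert_of_mem hi)))

end valprod

lemma prod_torsionBy (hΔ : W.Δ ≠ 0) (hodd : Odd p)
    [Fintype (Submodule.torsionBy ℤ (W⁄Qbar).Point p)] (c : Qbar) :
    (((W⁄Qbar).preΨ' p).eval c) ^ 2 = (p : Qbar) ^ 2 *
      ∏ x ∈ (Finset.univ : Finset (Submodule.torsionBy ℤ (W⁄Qbar).Point p)).erase 0,
        (c - xOf (x : (W⁄Qbar).Point)) := by
  classical
  have hΔ' : (W⁄Qbar).Δ ≠ 0 := baseChange_Δ_ne_zero hΔ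
  have hp0 : (p : Qbar) ≠ 0 := by exact_mod_cast hp.out.ne_zero
  rw [prod_torsion hΔ' hp0 hodd c]
  congr 1
  symm
  refine Finset.prod_bij (fun x _ => (x : (W⁄Qbar).Point)) ?_ ?_ ?_ ?_
  · intro x hx
    rw [Finset.mem_erase] at hx
    rw [mem_tors]
    exact ⟨(mem_torsionBy_nat_iff p _).mp x.2, fun h => hx.1 (Subtype.ext h)⟩
  · intro x _ y _ h
    exact Subtype.ext h
  · intro P hP
    rw [mem_tors] at hP
    exact ⟨⟨P, (mem_torsionBy_nat_iff p _).mpr hP.1⟩, by
      rw [Finset.mem_erase]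
      exact ⟨fun h => hP.2 (congrArg Subtype.val h), Finset.mem_univ _⟩, rfl⟩
  · intro x _
    rfl

/-- For `j ≠ 0` the value of `x - e` is `2 n j`. -/
lemma is_of_jN_ne_zero (N : NodeData (valOf hp.out hA) (W⁄Qbar) e D ((p : ℚ) * n)) (hodd : Odd p)
    {x : Submodule.torsionBy ℤ (W⁄Qbar).Point p} (hx : jN N hodd x ≠ 0) :
    (valOf hp.out hA).Is (jN N hodd x * (2 * n)) (xOf (x : (W⁄Qbar).Point) - e) := by
  have h1 := jN_spec N hodd x
  have h2 := jN_lt N hodd x
  have hn : (0 : ℚ) < n := by exact_mod_cast node_n_pos N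
  have hj : (0 : ℚ) < jN N hodd x := by exact_mod_cast Nat.pos_of_ne_zero hx
  have hlt : (2 * jN N hodd x : ℚ) < p := by exact_mod_cast h2
  rcases hxe : (x : (W⁄Qbar).Point) with _ | ⟨X, Y, hxy⟩
  · rw [hxe] at h1
    have h3 : pcomp (valOf hp.out hA) e ((p : ℚ) * n) (0 : (W⁄Qbar).Point) = 0 := pcomp_zero
    rw [← zero_def, h3] at h1
    exfalso
    have : (0 : ℚ) < jN N hodd x * (2 * n) := by positivity
    linarith
  · rw [hxe, pcomp_some] at h1
    change (valOf hp.out hA).Is _ (X - e)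
    rcases QVal.comp_cases (w := valOf hp.out hA) (h := (p : ℚ) * n) (X - e) with
      ⟨r, hr, hx'⟩ | ⟨r, hr, hrh, hx'⟩ | hx'
    · rw [QVal.comp_of_is_nonpos hx' hr] at h1
      exfalso
      have : (0 : ℚ) < jN N hodd x * (2 * n) := by positivity
      linarith
    · rw [QVal.comp_of_is hx' hr.le hrh.le] at h1
      rw [h1] at hx'
      exact hx'
    · rw [QVal.comp_of_ge N.hh hx'] at h1
      exfalso
      nlinarith

/-- For `j = 0` the value of `x - e` is `≤ 0`. -/
lemma is_of_jN_eq_zero (N : NodeData (valOf hp.out hA) (W⁄Qbar) e D ((p : ℚ) * n)) (hodd : Odd p)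
    {x : Submodule.torsionBy ℤ (W⁄Qbar).Point p} (hx : jN N hodd x = 0) (hx0 : x ≠ 0) :
    ∃ r ≤ 0, (valOf hp.out hA).Is r (xOf (x : (W⁄Qbar).Point) - e) := by
  have h1 := jN_spec N hodd x
  rw [hx, Nat.cast_zero, zero_mul] at h1
  rcases hxe : (x : (W⁄Qbar).Point) with _ | ⟨X, Y, hxy⟩
  · exact absurd (Subtype.ext hxe) hx0
  · rw [hxe, pcomp_some] at h1
    change ∃ r ≤ 0, (valOf hp.out hA).Is r (X - e)
    rcases QVal.comp_cases (w := valOf hp.out hA) (h := (p : ℚ) * n) (X - e) with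
      ⟨r, hr, hx'⟩ | ⟨r, hr, hrh, hx'⟩ | hx'
    · exact ⟨r, hr, hx'⟩
    · rw [QVal.comp_of_is hx' hr.le hrh.le] at h1
      exact absurd h1 hr.ne'
    · rw [QVal.comp_of_ge N.hh hx'] at h1
      exact absurd h1 N.hh.ne'

/-- The sum of the valuations over all nonzero torsion points. -/
lemma sum_val (hΔ : W.Δ ≠ 0) (N : NodeData (valOf hp.out hA) (W⁄Qbar) e D ((p : ℚ) * n))
    (hodd : Odd p) [Fintype (Submodule.torsionBy ℤ (W⁄Qbar).Point p)] :
    ∑ x ∈ (Finset.univ : Finset (Submodule.torsionBy ℤ (W⁄Qbar).Point p)).erase 0,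
      (valOf hp.out hA).val (xOf (x : (W⁄Qbar).Point) - e) = (p ^ 2 - 1) / 2 * (p * n) - 2 := by
  classical
  set w := valOf hp.out hA with hw
  have h1 := prod_torsionBy hΔ hodd e
  have h2 : (W⁄Qbar).Ψ₂Sq.eval e = 0 := by
    rw [eval_Ψ₂Sq]
    have := N.h6
    linear_combination this
  have h3 : (W⁄Qbar).Ψ₃.eval e = -D ^ 2 := by
    rw [eval_Ψ₃]
    have := N.h8
    linear_combination this
  obtain ⟨m, hm⟩ := hodd
  obtain ⟨ε, hε, hev⟩ := eval_preΨ'_odd (W⁄Qbar) h2 h3 m
  rw [← hm] at hev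
  rw [hev, mul_pow, hε, one_mul] at h1
  have hne : ∀ x ∈ (Finset.univ : Finset (Submodule.torsionBy ℤ (W⁄Qbar).Point p)).erase 0,
      (xOf (x : (W⁄Qbar).Point) - e) ≠ 0 := by
    intro x hx
    have hodd : Odd p := ⟨m, hm⟩
    rw [Finset.mem_erase] at hx
    by_cases hj : jN N hodd x = 0
    · obtain ⟨r, -, h⟩ := is_of_jN_eq_zero N hodd hj hx.1
      exact h.1
    · exact (is_of_jN_ne_zero N hodd hj).1
  have hne' : ∀ x ∈ (Finset.univ : Finset (Submodule.torsionBy ℤ (W⁄Qbar).Point p)).erase 0,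
      (e - xOf (x : (W⁄Qbar).Point)) ≠ 0 := by
    intro x hx
    rw [← neg_sub]
    exact neg_ne_zero.mpr (hne x hx)
  have h4 := val_prod w _ (fun x : Submodule.torsionBy ℤ (W⁄Qbar).Point p =>
    e - xOf (x : (W⁄Qbar).Point)) hne'
  have h5 : ∑ x ∈ (Finset.univ : Finset (Submodule.torsionBy ℤ (W⁄Qbar).Point p)).erase 0,
      w.val (e - xOf (x : (W⁄Qbar).Point)) =
      ∑ x ∈ (Finset.univ : Finset (Submodule.torsionBy ℤ (W⁄Qbar).Point p)).erase 0,
      w.val (xOf (x : (W⁄Qbar).Point) - e) := by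
    refine Finset.sum_congr rfl (fun x hx => ?_)
    rw [← neg_sub, QVal.val_neg (hne x hx)]
  rw [h5] at h4
  have h6 := ((valOf_prime hp.out hA).sq).mul h4
  rw [← h1] at h6
  have h7 := (N.hD.pow (m * (m + 1))).sq
  have h8 := h6.unique h7
  have h9 : (p : ℚ) = 2 * m + 1 := by exact_mod_cast hm
  push_cast at h8
  rw [h9] at h8 ⊢
  linarith

/-- Not all `p`-torsion points are in the identity component. -/
lemma exists_jN_ne_zero (hΔ : W.Δ ≠ 0)
    (N : NodeData (valOf hp.out hA) (W⁄Qbar) e D ((p : ℚ) * n)) (hodd : Odd p) :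
    ∃ x, jN N hodd x ≠ 0 := by
  classical
  by_contra hcon
  push Not at hcon
  have hfin : Finite (Submodule.torsionBy ℤ (W⁄Qbar).Point p) :=
    finite_torsionBy_rat hΔ hp.out.ne_zero
  have : Fintype (Submodule.torsionBy ℤ (W⁄Qbar).Point p) := Fintype.ofFinite _
  have h1 := sum_val hΔ N hodd
  have h2 : ∑ x ∈ (Finset.univ : Finset (Submodule.torsionBy ℤ (W⁄Qbar).Point p)).erase 0,
      (valOf hp.out hA).val (xOf (x : (W⁄Qbar).Point) - e) ≤ 0 := by
    apply Finset.sum_nonpos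
    intro x hx
    rw [Finset.mem_erase] at hx
    obtain ⟨r, hr, h⟩ := is_of_jN_eq_zero N hodd (hcon x) hx.1
    rw [h.2]; exact hr
  rw [h1] at h2
  have hn : (1 : ℚ) ≤ n := by exact_mod_cast node_n_pos N
  have hp3 : (3 : ℚ) ≤ p := by
    have : 3 ≤ p := by
      have h2 := hp.out.two_le
      obtain ⟨k, hk⟩ := hodd
      omega
    exact_mod_cast this
  have h3 : (3 : ℚ) ≤ p * n := by nlinarith
  have h4 : (8 : ℚ) ≤ p ^ 2 - 1 := by nlinarith
  nlinarith

/-- The identity component of `E[p]`, a line. -/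
noncomputable def line (N : NodeData (valOf hp.out hA) (W⁄Qbar) e D ((p : ℚ) * n))
    (hodd : Odd p) : Submodule (ZMod p) (Submodule.torsionBy ℤ (W⁄Qbar).Point p) :=
  (addUpToSign N hodd).zeroLocus

lemma mem_line {N : NodeData (valOf hp.out hA) (W⁄Qbar) e D ((p : ℚ) * n)}
    {hodd : Odd p} {x : Submodule.torsionBy ℤ (W⁄Qbar).Point p} :
    x ∈ line N hodd ↔ jN N hodd x = 0 := Iff.rfl

lemma card_line (hΔ : W.Δ ≠ 0)
    (N : NodeData (valOf hp.out hA) (W⁄Qbar) e D ((p : ℚ) * n)) (hodd : Odd p) :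
    Nat.card (line N hodd) = p := by
  obtain ⟨x, hx⟩ := exists_jN_ne_zero hΔ N hodd
  exact (addUpToSign N hodd).card_zeroLocus hx (card_torsionBy_rat hΔ hp.out.ne_zero)

/-- The sum of the valuations over the nonzero points of the line is `-2`. -/
lemma sum_val_line (hΔ : W.Δ ≠ 0)
    (N : NodeData (valOf hp.out hA) (W⁄Qbar) e D ((p : ℚ) * n)) (hodd : Odd p)
    [Fintype (line N hodd)] :
    ∑ z ∈ (Finset.univ : Finset (line N hodd)).erase 0,
      (valOf hp.out hA).val (xOf ((z : Submodule.torsionBy ℤ (W⁄Qbar).Point p) :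
        (W⁄Qbar).Point) - e) = -2 := by
  classical
  have hfin : Finite (Submodule.torsionBy ℤ (W⁄Qbar).Point p) :=
    finite_torsionBy_rat hΔ hp.out.ne_zero
  have : Fintype (Submodule.torsionBy ℤ (W⁄Qbar).Point p) := Fintype.ofFinite _
  obtain ⟨x₁, hx₁⟩ := exists_jN_ne_zero hΔ N hodd
  have h1 := sum_val hΔ N hodd
  have h2 := (addUpToSign N hodd).sum_eq hx₁ (card_torsionBy_rat hΔ hp.out.ne_zero) hodd
  have h3 : (4 : ℚ) * ∑ x, (jN N hodd x : ℚ) = p * (p ^ 2 - 1) := by
    have h4 : 1 ≤ p ^ 2 := Nat.one_le_pow _ _ hp.out.pos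
    have h5 := congrArg (fun k : ℕ => (k : ℚ)) h2
    push_cast [Nat.cast_sub h4] at h5
    exact h5
  -- split the sum
  have h6 : ∑ x ∈ (Finset.univ : Finset (Submodule.torsionBy ℤ (W⁄Qbar).Point p)).erase 0,
      (valOf hp.out hA).val (xOf (x : (W⁄Qbar).Point) - e) =
      ∑ x ∈ ((Finset.univ : Finset (Submodule.torsionBy ℤ (W⁄Qbar).Point p)).erase 0).filter
        (fun x => jN N hodd x = 0), (valOf hp.out hA).val (xOf (x : (W⁄Qbar).Point) - e) +
      ∑ x ∈ ((Finset.univ : Finset (Submodule.torsionBy ℤ (W⁄Qbar).Point p)).erase 0).filter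
        (fun x => ¬ jN N hodd x = 0), (valOf hp.out hA).val (xOf (x : (W⁄Qbar).Point) - e) :=
    (Finset.sum_filter_add_sum_filter_not _ _ _).symm
  have h7 : ∑ x ∈ ((Finset.univ : Finset (Submodule.torsionBy ℤ (W⁄Qbar).Point p)).erase 0).filter
        (fun x => ¬ jN N hodd x = 0), (valOf hp.out hA).val (xOf (x : (W⁄Qbar).Point) - e) =
        ∑ x, (jN N hodd x : ℚ) * (2 * n) := by
    have h8 : ∑ x, (jN N hodd x : ℚ) * (2 * n) =
        ∑ x ∈ ((Finset.univ : Finset (Submodule.torsionBy ℤ (W⁄Qbar).Point p)).erase 0).filter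
        (fun x => ¬ jN N hodd x = 0), (jN N hodd x : ℚ) * (2 * n) := by
      symm
      apply Finset.sum_subset (Finset.subset_univ _)
      intro x _ hx
      rw [Finset.mem_filter, not_and_or, Finset.mem_erase, not_and_or, not_not, not_not] at hx
      rcases hx with (h | h) | h
      · have : jN N hodd (0 : Submodule.torsionBy ℤ (W⁄Qbar).Point p) = 0 :=
          (line N hodd).zero_mem
        rw [h, this, Nat.cast_zero, zero_mul]
      · exact absurd (Finset.mem_univ _) h
      · rw [h, Nat.cast_zero, zero_mul]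
    rw [h8]
    refine Finset.sum_congr rfl (fun x hx => ?_)
    rw [Finset.mem_filter] at hx
    exact (is_of_jN_ne_zero N hodd hx.2).2
  have h9 : ∑ x ∈ ((Finset.univ : Finset (Submodule.torsionBy ℤ (W⁄Qbar).Point p)).erase 0).filter
        (fun x => jN N hodd x = 0), (valOf hp.out hA).val (xOf (x : (W⁄Qbar).Point) - e) =
      ∑ z ∈ (Finset.univ : Finset (line N hodd)).erase 0,
      (valOf hp.out hA).val (xOf ((z : Submodule.torsionBy ℤ (W⁄Qbar).Point p) :
        (W⁄Qbar).Point) - e) := by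
    symm
    refine Finset.sum_bij (fun z _ => (z : Submodule.torsionBy ℤ (W⁄Qbar).Point p)) ?_ ?_ ?_ ?_
    · intro z hz
      rw [Finset.mem_erase] at hz
      rw [Finset.mem_filter, Finset.mem_erase]
      exact ⟨⟨fun h => hz.1 (Subtype.ext h), Finset.mem_univ _⟩, z.2⟩
    · intro z _ z' _ h
      exact Subtype.ext h
    · intro x hx
      rw [Finset.mem_filter, Finset.mem_erase] at hx
      exact ⟨⟨x, hx.2⟩, by
        rw [Finset.mem_erase]
        exact ⟨fun h => hx.1.1 (congrArg Subtype.val h), Finset.mem_univ _⟩, rfl⟩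
    · intro z _
      rfl
  rw [h6, h7, h9, ← Finset.sum_mul] at h1
  have h10 : (∑ x, (jN N hodd x : ℚ)) * (2 * n) = (p ^ 2 - 1) / 2 * (p * n) := by
    have : (∑ x, (jN N hodd x : ℚ)) = p * (p ^ 2 - 1) / 4 := by linarith
    rw [this]; ring
  linarith

/-- Integrality of the invariants at `A`. -/
structure BInt (W : WeierstrassCurve ℚ) (A : ValuationSubring Qbar) : Prop where
  b2 : A.valuation (W⁄Qbar).b₂ ≤ 1
  b4 : A.valuation (W⁄Qbar).b₄ ≤ 1
  b6 : A.valuation (W⁄Qbar).b₆ ≤ 1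
  b8 : A.valuation (W⁄Qbar).b₈ ≤ 1

/-- comparison of valuations of multiples of points near infinity. -/
lemma val_nsmul_le (hb : BInt W A) {P : (W⁄Qbar).Point} {x y : Qbar} {h : (W⁄Qbar).Nonsingular x y}
    (hP : P = Point.some x y h) (hx : (valOf hp.out hA).val x < 0) (hx0 : x ≠ 0) (k : ℕ)
    (hk : k • P ≠ 0) : (valOf hp.out hA).val (xOf (k • P)) ≤ (valOf hp.out hA).val x ∧
      xOf (k • P) ≠ 0 := by
  have hxv : 1 < A.valuation x := by
    rw [← not_le, A.valuation_le_one_iff, ← valOf_ge_zero_iff hp.out hA]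
    rintro (h | h)
    · exact hx0 h
    · linarith
  have hc0 : x⁻¹ ≠ 0 := inv_ne_zero hx0
  have hc : A.valuation x⁻¹ < 1 := by
    rw [map_inv₀]
    exact inv_lt_one_of_one_lt₀ hxv
  have hnear : Near A.valuation x⁻¹ P := by
    rw [hP]
    exact near_some _ (by rw [inv_mul_cancel₀ hx0, _root_.map_one])
  obtain ⟨h1, -⟩ := near_nsmul A.valuation hc0 hc hb.b2 hb.b4 hb.b6 hb.b8 hnear k
  rcases hkP : k • P with _ | ⟨x', y', h'⟩
  · exact absurd hkP hk
  · have h2 := h1 x' y' h' hkP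
    rw [map_mul, map_inv₀] at h2
    have hvx : A.valuation x ≠ 0 := (Valuation.ne_zero_iff _).mpr hx0
    have h3 : A.valuation x ≤ A.valuation x' := by
      have := mul_le_mul_right h2 (A.valuation x)
      rwa [mul_one, mul_inv_cancel_left₀ hvx] at this
    have hx'0 : x' ≠ 0 := by
      rintro rfl
      rw [_root_.map_zero] at h3
      exact absurd (lt_of_lt_of_le hxv h3) (not_lt.mpr zero_le)
    refine ⟨?_, hx'0⟩
    change (valOf hp.out hA).val x' ≤ (valOf hp.out hA).val x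
    exact (qval_le_iff A.valuation hp.out (lt_one_of_liesOver hA) hx0 hx'0).mpr h3

/-- **The valuation of the `x`-coordinates of the nonzero points of the line is `-2/(p-1)`.** -/
theorem val_line (hΔ : W.Δ ≠ 0) (hb : BInt W A) (he : e ∈ A)
    (N : NodeData (valOf hp.out hA) (W⁄Qbar) e D ((p : ℚ) * n)) (hodd : Odd p)
    {z : Submodule.torsionBy ℤ (W⁄Qbar).Point p} (hz : z ∈ line N hodd) (hz0 : z ≠ 0) :
    (valOf hp.out hA).Is (-2 / (p - 1)) (xOf (z : (W⁄Qbar).Point)) ∧
    (valOf hp.out hA).Is (-2 / (p - 1)) (xOf (z : (W⁄Qbar).Point) - e) := by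
  classical
  set w := valOf hp.out hA with hw
  have hfinl : Finite (line N hodd) := Nat.finite_of_card_ne_zero (by
    rw [card_line hΔ N hodd]; exact hp.out.ne_zero)
  have : Fintype (line N hodd) := Fintype.ofFinite _
  have hcard : Fintype.card (line N hodd) = p := by
    rw [← Nat.card_eq_fintype_card]; exact card_line hΔ N hodd
  have hsum := sum_val_line hΔ N hodd
  have heg : w.Ge 0 e := (valOf_ge_zero_iff hp.out hA).mpr he
  -- passing between `x` and `x - e`
  have hpass : ∀ (x : Qbar) (r : ℚ), r < 0 → (w.Is r (x - e) ↔ w.Is r x) := by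
    intro x r hr
    constructor
    · intro h
      have : x = (x - e) + e := by ring
      rw [this]
      exact h.add_gt (heg.gt hr)
    · intro h
      exact h.sub_gt (heg.gt hr)
  -- a point with negative valuation
  obtain ⟨z₀, hz₀, hneg⟩ : ∃ z₀ ∈ (Finset.univ : Finset (line N hodd)).erase 0,
      w.val (xOf ((z₀ : Submodule.torsionBy ℤ (W⁄Qbar).Point p) : (W⁄Qbar).Point) - e) < 0 := by
    by_contra hcon
    push Not at hcon
    have := Finset.sum_nonneg hcon
    rw [hsum] at this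
    linarith
  rw [Finset.mem_erase] at hz₀
  have hne : ∀ x : Submodule.torsionBy ℤ (W⁄Qbar).Point p, x ∈ line N hodd → x ≠ 0 →
      xOf (x : (W⁄Qbar).Point) - e ≠ 0 := by
    intro x hx hx0
    obtain ⟨r, -, h⟩ := is_of_jN_eq_zero N hodd hx hx0
    exact h.1
  -- monotonicity
  have hmono : ∀ a b : Submodule.torsionBy ℤ (W⁄Qbar).Point p, a ∈ line N hodd →
      b ∈ line N hodd → a ≠ 0 → b ≠ 0 → w.val (xOf (a : (W⁄Qbar).Point) - e) < 0 →
      w.val (xOf (b : (W⁄Qbar).Point) - e) ≤ w.val (xOf (a : (W⁄Qbar).Point) - e) := by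
    intro a b ha hb' ha0 hb0 hneg
    have hrank : Module.finrank (ZMod p) (line N hodd) = 1 := by
      have h1 := Module.card_eq_pow_finrank (K := ZMod p) (V := line N hodd)
      rw [hcard, ZMod.card] at h1
      have h2 : p ^ 1 = p ^ Module.finrank (ZMod p) (line N hodd) := by rw [pow_one]; exact h1
      exact (Nat.pow_right_injective hp.out.two_le h2).symm
    obtain ⟨c, hc⟩ := (finrank_eq_one_iff_of_nonzero' (⟨a, ha⟩ : line N hodd)
      (fun h => ha0 (congrArg Subtype.val h))).mp hrank ⟨b, hb'⟩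
    have hc' : c • a = b := congrArg Subtype.val hc
    have h2 : c.val • a = b := by
      rw [← hc']
      conv_rhs => rw [← ZMod.natCast_zmod_val c]
      exact (Nat.cast_smul_eq_nsmul (ZMod p) _ _).symm
    have h3 : c.val • (a : (W⁄Qbar).Point) = b := congrArg Subtype.val h2
    have h4 := (hpass _ _ hneg).mp (QVal.Is.of_ne (hne a ha ha0))
    rcases hae : (a : (W⁄Qbar).Point) with _ | ⟨X, Y, hXY⟩
    · exact absurd (Subtype.ext hae) ha0
    rw [hae] at h4 h3
    have h4' : w.Is (w.val (xOf (a : (W⁄Qbar).Point) - e)) X := by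
      rw [hae]; exact h4
    have hXneg : w.val X < 0 := by
      rw [h4'.2]; exact hneg
    have hb0' : (b : (W⁄Qbar).Point) ≠ 0 := fun h => hb0 (Subtype.ext h)
    obtain ⟨h5, h6⟩ := val_nsmul_le (P := Point.some X Y hXY) (hA := hA) hb rfl hXneg h4'.1 c.val
      (by rw [h3]; exact hb0')
    rw [h3] at h5 h6
    have h7 : w.val (xOf (b : (W⁄Qbar).Point)) < 0 := lt_of_le_of_lt h5 hXneg
    have h8 := (hpass _ _ h7).mpr (QVal.Is.of_ne h6)
    rw [h8.2]
    have h9 : w.val X = w.val (X - e) := h4.2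
    change w.val (xOf (b : (W⁄Qbar).Point)) ≤ w.val (X - e)
    rw [← h9]
    exact h5
  -- all equal
  have hall : ∀ b : Submodule.torsionBy ℤ (W⁄Qbar).Point p, b ∈ line N hodd → b ≠ 0 →
      w.val (xOf (b : (W⁄Qbar).Point) - e) =
        w.val (xOf ((z₀ : Submodule.torsionBy ℤ (W⁄Qbar).Point p) : (W⁄Qbar).Point) - e) := by
    intro b hb' hb0
    have hz₀0 : (z₀ : Submodule.torsionBy ℤ (W⁄Qbar).Point p) ≠ 0 :=
      fun h => hz₀.1 (Subtype.ext h)
    have h1 := hmono z₀ b z₀.2 hb' hz₀0 hb0 hneg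
    have h2 := hmono b z₀ hb' z₀.2 hb0 hz₀0 (lt_of_le_of_lt h1 hneg)
    exact le_antisymm h1 h2
  have hval : w.val (xOf ((z₀ : Submodule.torsionBy ℤ (W⁄Qbar).Point p) : (W⁄Qbar).Point) - e) =
      -2 / (p - 1) := by
    have h1 : ∀ b ∈ (Finset.univ : Finset (line N hodd)).erase 0,
        w.val (xOf ((b : Submodule.torsionBy ℤ (W⁄Qbar).Point p) : (W⁄Qbar).Point) - e) =
        w.val (xOf ((z₀ : Submodule.torsionBy ℤ (W⁄Qbar).Point p) : (W⁄Qbar).Point) - e) := by
      intro b hb'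
      rw [Finset.mem_erase] at hb'
      exact hall b b.2 (fun h => hb'.1 (Subtype.ext h))
    rw [Finset.sum_congr rfl h1, Finset.sum_const, Finset.card_erase_of_mem (Finset.mem_univ _),
      Finset.card_univ, hcard, nsmul_eq_mul] at hsum
    have hp1 : 1 < p := hp.out.one_lt
    rw [Nat.cast_sub hp1.le, Nat.cast_one] at hsum
    have hp1' : (p : ℚ) - 1 ≠ 0 := by
      have : (1 : ℚ) < p := by exact_mod_cast hp1
      linarith
    field_simp
    linarith
  have hp1 : (1 : ℚ) < p := by exact_mod_cast hp.out.one_lt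
  have hr : (-2 / (p - 1) : ℚ) < 0 := div_neg_of_neg_of_pos (by norm_num) (by linarith)
  have hfinal : w.Is (-2 / (p - 1)) (xOf (z : (W⁄Qbar).Point) - e) :=
    ⟨hne z hz hz0, by rw [hall z hz hz0, hval]⟩
  exact ⟨(hpass _ _ hr).mp hfinal, hfinal⟩

end Fermat.Agent.LocE
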