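import Fermat.Agent.LocE.Inertia
import Fermat.Agent.LocE.Kummer

/-!
# `E[p]` at a place of multiplicative reduction above `p`: peu ramifiée classes
-/

set_option autoImplicit false

namespace Fermat.Agent.LocE

open WeierstrassCurve WeierstrassCurve.Affine WeierstrassCurve.Affine.Point
open Fermat.Agent.Torsion FermatAgent.ECVal Fermat.Agent.S13aux

local notation "Qbar" => AlgebraicClosure ℚ

variable {W : WeierstrassCurve ℚ} {p : ℕ} [hp : Fact p.Prime]
  {A : ValuationSubring Qbar} {hA : A.LiesOverPrime p} {e D : Qbar} {n : ℕ}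

omit hp in
lemma xOf_smul (σ : Qbar ≃ₐ[ℚ] Qbar) (x : Submodule.torsionBy ℤ (W⁄Qbar).Point p) :
    xOf ((σ • x : Submodule.torsionBy ℤ (W⁄Qbar).Point p) : (W⁄Qbar).Point) =
      σ (xOf (x : (W⁄Qbar).Point)) := by
  change xOf (Point.map σ.toAlgHom (x : (W⁄Qbar).Point)) = _
  rcases (x : (W⁄Qbar).Point) with _ | ⟨X, Y, h⟩
  · change xOf (Point.map σ.toAlgHom (0 : (W⁄Qbar).Point)) = σ 0
    rw [Point.map_zero, _root_.map_zero]
    rfl
  · rw [map_some]
    rfl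

lemma smul_zmod_smul (σ : Qbar ≃ₐ[ℚ] Qbar) (c : ZMod p)
    (x : Submodule.torsionBy ℤ (W⁄Qbar).Point p) : σ • (c • x) = c • (σ • x) :=
  ZMod.map_smul (DistribSMul.toAddMonoidHom _ σ) c x

/-- The variation of `x` under translation by a nonzero point of the line. -/
lemma xOf_add_sub_is (hΔ : W.Δ ≠ 0) (hb : BInt W A) (he : e ∈ A)
    (N : NodeData (valOf hp.out hA) (W⁄Qbar) e D ((p : ℚ) * n)) (hodd : Odd p)
    {x v : Submodule.torsionBy ℤ (W⁄Qbar).Point p} (hx : jN N hodd x ≠ 0)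
    (hv : v ∈ line N hodd) (hv0 : v ≠ 0) :
    (valOf hp.out hA).Is (jN N hodd x * (2 * n) + 1 / (p - 1))
      (xOf ((x + v : Submodule.torsionBy ℤ (W⁄Qbar).Point p) : (W⁄Qbar).Point) -
        xOf (x : (W⁄Qbar).Point)) := by
  have hn : (0 : ℚ) < n := by exact_mod_cast node_n_pos N
  have hj' : (0 : ℚ) < jN N hodd x := by exact_mod_cast Nat.pos_of_ne_zero hx
  have hpos : (0 : ℚ) < jN N hodd x * (2 * n) := by positivity
  have hlt : (jN N hodd x * (2 * n) : ℚ) < p * n := by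
    have : (2 * jN N hodd x : ℚ) < p := by exact_mod_cast jN_lt N hodd x
    nlinarith
  have hp1 : (1 : ℚ) < p := by exact_mod_cast hp.out.one_lt
  have hs : (0 : ℚ) < 1 / (p - 1) := div_pos one_pos (by linarith)
  have h1 := is_of_jN_ne_zero N hodd hx
  have h2 := (val_line hΔ hb he N hodd hv hv0).2
  have h3 : jN N hodd (x + v) ≠ 0 := by
    have := (addUpToSign N hodd).add_zeroLocus x hv
    rw [this]; exact hx
  rcases hxe : (x : (W⁄Qbar).Point) with _ | ⟨X₁, Y₁, hX₁⟩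
  · exact absurd (show jN N hodd x = 0 by
      have : x = 0 := Subtype.ext hxe
      rw [this]; exact (line N hodd).zero_mem) hx
  rcases hve : (v : (W⁄Qbar).Point) with _ | ⟨X₂, Y₂, hX₂⟩
  · exact absurd (Subtype.ext hve) hv0
  rcases hxve : ((x + v : Submodule.torsionBy ℤ (W⁄Qbar).Point p) : (W⁄Qbar).Point) with
    _ | ⟨α, α', hα⟩
  · exact absurd (show jN N hodd (x + v) = 0 by
      have : x + v = 0 := Subtype.ext hxve
      rw [this]; exact (line N hodd).zero_mem) h3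
  rw [hxe] at h1
  rw [hve] at h2
  have hadd : Point.some X₁ Y₁ hX₁ + Point.some X₂ Y₂ hX₂ = Point.some α α' hα := by
    rw [← hxe, ← hve, ← hxve]
    rfl
  exact addX_sub_is N (isTwo hodd) hX₁ hX₂ hα hadd hpos hlt hs h1
    (h2.congr (by ring))

/-- **The Kummer classes of `E[p]` are classes of units.** -/
theorem exists_unit {W₀ : WeierstrassCurve ℤ} (hΔ₀ : W₀.Δ ≠ 0)
    (hW : W = W₀.map (Int.castRingHom ℚ)) (hb : BInt W A) (he : e ∈ A) (hef : IsFixed A e)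
    (N : NodeData (valOf hp.out hA) (W⁄Qbar) e D ((p : ℚ) * n)) (hodd : Odd p)
    {ζ : Qbar} (hζ : IsPrimitiveRoot ζ p)
    {z : Submodule.torsionBy ℤ (W⁄Qbar).Point p} (hz : z ∈ line N hodd) (hz0 : z ≠ 0)
    (x : Submodule.torsionBy ℤ (W⁄Qbar).Point p) :
    ∃ ρ : Qbar, (valOf hp.out hA).Is 0 ρ ∧ ∀ σ ∈ A.inertiaSubgroupIn ℚ,
      ∃ k : ZMod p, σ • x = x + k • z ∧ σ ρ = ζ ^ k.val * ρ := by
  classical
  have hp0 : NeZero p := ⟨hp.out.ne_zero⟩
  have hΔ : W.Δ ≠ 0 := by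
    rw [hW, WeierstrassCurve.map_Δ]
    simpa using hΔ₀
  set w := valOf hp.out hA with hw
  have hcyc : ∀ σ : Qbar ≃ₐ[ℚ] Qbar, σ ζ = ζ ^ (ECFrob.cycMod p σ).val :=
    fun σ => ECFrob.cycMod_spec p σ hζ.pow_eq_one
  have hspan : ∀ v ∈ line N hodd, ∃ k : ZMod p, v = k • z := by
    intro v hv
    obtain ⟨c, hc⟩ := (finrank_eq_one_iff_of_nonzero' (⟨z, hz⟩ : line N hodd)
      (fun h => hz0 (congrArg Subtype.val h))).mp (finrank_line hΔ N hodd) ⟨v, hv⟩
    exact ⟨c, (congrArg Subtype.val hc).symm⟩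
  by_cases hx : jN N hodd x = 0
  · -- `x` on the line
    obtain ⟨c, rfl⟩ := hspan x hx
    refine ⟨ζ ^ c.val, ?_, fun σ hσ => ⟨c * (ECFrob.cycMod p σ - 1), ?_, ?_⟩⟩
    · have h1 := (QVal.Is.of_ne (w := w) (hζ.ne_zero hp.out.ne_zero)).pow p
      rw [hζ.pow_eq_one] at h1
      have h2 := h1.unique QVal.is_one
      have hpQ : (p : ℚ) ≠ 0 := by exact_mod_cast hp.out.ne_zero
      have h3 : w.Is 0 ζ :=
        ⟨hζ.ne_zero hp.out.ne_zero, (mul_eq_zero.mp h2).resolve_left hpQ⟩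
      exact (h3.pow _).congr (by ring)
    · rw [smul_eq_of_mem_line hΔ₀ hW hb he hef N hodd hσ hx, ← mul_smul, ← add_smul]
      congr 1
      ring
    · rw [← zchar_apply hζ, ← zchar_apply hζ, map_zchar hζ (hcyc σ), ← AddChar.map_add_eq_mul]
      congr 1
      ring
  -- `x` not on the line
  have hex : ∀ σ : Qbar ≃ₐ[ℚ] Qbar, ∃ k : ZMod p, σ ∈ A.inertiaSubgroupIn ℚ →
      σ • x = x + k • z := by
    intro σ
    by_cases hσ : σ ∈ A.inertiaSubgroupIn ℚ
    · obtain ⟨k, hk⟩ := hspan _ (smul_sub_mem_line hΔ hb he hef N hodd hσ x)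
      exact ⟨k, fun _ => by rw [← hk]; abel⟩
    · exact ⟨0, fun h => absurd h hσ⟩
  choose κ hκ using hex
  set m : ℕ := jN N hodd x * (2 * n) with hm
  have hpm : w.Is m ((p : Qbar) ^ m) := ((valOf_prime hp.out hA).pow m).congr (by simp)
  have hpm0 : (p : Qbar) ^ m ≠ 0 := hpm.1
  let T : ZMod p → Qbar := fun k =>
    (xOf ((x + k • z : Submodule.torsionBy ℤ (W⁄Qbar).Point p) : (W⁄Qbar).Point) - e) /
      (p : Qbar) ^ m
  have hTdef : ∀ k, T k =
    (xOf ((x + k • z : Submodule.torsionBy ℤ (W⁄Qbar).Point p) : (W⁄Qbar).Point) - e) /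
      (p : Qbar) ^ m := fun k => rfl
  have hj : ∀ k : ZMod p, jN N hodd (x + k • z) = jN N hodd x := fun k =>
    (addUpToSign N hodd).add_zeroLocus x ((line N hodd).smul_mem k hz)
  have hT0 : ∀ k, w.Is 0 (T k) := by
    intro k
    have h1 := is_of_jN_ne_zero N hodd (x := x + k • z) (by rw [hj]; exact hx)
    rw [hj] at h1
    rw [hTdef, div_eq_mul_inv]
    exact (h1.mul hpm.inv).congr (by rw [hm]; push_cast; ring)
  have hTd : ∀ k k', k ≠ k' → w.Is (1 / (p - 1)) (T k - T k') := by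
    intro k k' hkk
    have hv0 : (k - k') • z ≠ 0 := smul_ne_zero (sub_ne_zero.mpr hkk) hz0
    have h1 := xOf_add_sub_is hΔ hb he N hodd (x := x + k' • z) (by rw [hj]; exact hx)
      ((line N hodd).smul_mem (k - k') hz) hv0
    have h2 : x + k' • z + (k - k') • z = x + k • z := by module
    rw [h2, hj] at h1
    have h3 : T k - T k' = (xOf ((x + k • z : Submodule.torsionBy ℤ (W⁄Qbar).Point p) :
        (W⁄Qbar).Point) - xOf ((x + k' • z : Submodule.torsionBy ℤ (W⁄Qbar).Point p) :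
        (W⁄Qbar).Point)) * ((p : Qbar) ^ m)⁻¹ := by
      rw [hTdef, hTdef]; field_simp; ring
    rw [h3]
    exact (h1.mul hpm.inv).congr (by rw [hm]; push_cast; ring)
  have hinj : Function.Injective T := by
    intro k k' h
    by_contra hne
    exact (hTd k k' hne).1 (sub_eq_zero.mpr h)
  have hσT : ∀ σ ∈ A.inertiaSubgroupIn ℚ, ∀ k, σ (T k) = T (κ σ + ECFrob.cycMod p σ * k) := by
    intro σ hσ k
    have h1 : σ • (x + k • z) = x + (κ σ + ECFrob.cycMod p σ * k) • z := by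
      rw [smul_add, hκ σ hσ, smul_zmod_smul,
        smul_eq_of_mem_line hΔ₀ hW hb he hef N hodd hσ hz]
      module
    rw [hTdef, hTdef, ← h1, xOf_smul, map_div₀, map_sub, map_pow, map_natCast, hef σ hσ]
  have hp1 : (1 : ℚ) < p := by exact_mod_cast hp.out.one_lt
  obtain ⟨ρ, hρ, hρσ⟩ := exists_unit_kummer (hA := hA) hζ T hinj
    (fun k => (valOf_ge_zero_iff hp.out hA).mp (hT0 k).ge) κ (fun σ => ECFrob.cycMod p σ)
    (fun σ _ => hcyc σ) hσT (r := 1 / (p - 1)) (by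
      have : (0 : ℚ) < 1 / p := by positivity
      linarith) (hTd 1 0 one_ne_zero)
  exact ⟨ρ, hρ, fun σ hσ => ⟨κ σ, hκ σ hσ, hρσ σ hσ⟩⟩

end Fermat.Agent.LocE
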